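import Mathlib.NumberTheory.ModularForms.Basic
import Mathlib.NumberTheory.ModularForms.CongruenceSubgroups
import Mathlib.Tactic.LinearCombination
import Mathlib.Algebra.Field.ZMod
import Fermat.Prelude.Def_ModularForm_HeckeOperator

/-!
# Matrix identities for the Atkin-Lehner theory at one prime

Coset bookkeeping for `U_q`, `T_ℓ`, the Atkin-Lehner matrix `W_q` (`q ∥ N`) and the trace
from level `q * M` to level `M`.
-/

set_option autoImplicit false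

noncomputable section

open Matrix.SpecialLinearGroup UpperHalfPlane ModularForm
open scoped MatrixGroups ModularForm

namespace Fermat.Agent.Newforms

/-- `Γ₀(N)` inside `GL₂(ℝ)`. -/
abbrev gamma0GL (N : ℕ) : Subgroup (GL (Fin 2) ℝ) :=
  (CongruenceSubgroup.Gamma0 N : Subgroup (GL (Fin 2) ℝ))

/-- `Γ₀(N)` by divisibility of the lower left entry. -/
theorem mem_Gamma0_iff {N : ℕ} {g : SL(2, ℤ)} :
    g ∈ CongruenceSubgroup.Gamma0 N ↔ (N : ℤ) ∣ g 1 0 :=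
  CongruenceSubgroup.Gamma0_mem.trans (ZMod.intCast_zmod_eq_zero_iff_dvd _ _)

/-- Elements of `Γ₀(N)` map into `gamma0GL N`. -/
theorem mapGL_mem_gamma0GL {N : ℕ} {g : SL(2, ℤ)} (hg : (N : ℤ) ∣ g 1 0) :
    mapGL ℝ g ∈ gamma0GL N :=
  Subgroup.mem_map_of_mem _ (mem_Gamma0_iff.mpr hg)

/-- The determinant relation in `SL₂(ℤ)`. -/
theorem det_SL (g : SL(2, ℤ)) : g 0 0 * g 1 1 - g 0 1 * g 1 0 = 1 := by
  have h := g.det_coe
  rwa [Matrix.det_fin_two] at h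

/-- An element of `SL(2, ℤ)` from its entries. -/
def mkSL (a b c d : ℤ) (h : a * d - b * c = 1) : SL(2, ℤ) :=
  ⟨!![a, b; c, d], by rw [Matrix.det_fin_two_of]; exact h⟩

/-- The matrix of `mkSL`. -/
@[simp] theorem coe_mkSL (a b c d : ℤ) (h : a * d - b * c = 1) :
    ((mkSL a b c d h : SL(2, ℤ)) : Matrix (Fin 2) (Fin 2) ℤ) = !![a, b; c, d] := rfl

@[simp] theorem mapGL_apply' (g : SL(2, ℤ)) (i j : Fin 2) :
    (mapGL ℝ g : GL (Fin 2) ℝ) i j = ((g i j : ℤ) : ℝ) := by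
  simp

/-- Elements of `SL₂(ℤ)` have positive determinant in `GL₂(ℝ)`. -/
theorem det_mapGL_pos (g : SL(2, ℤ)) : 0 < ((mapGL ℝ g).det : ℝ) := by
  rw [Matrix.SpecialLinearGroup.det_mapGL]
  simp

/-- Reindexing a sum of slashes: if right multiplication by `X` sends the cosets `Γ R x` into the
cosets `Γ S y`, and the cosets `Γ R x` are pairwise distinct, then it permutes the sum. -/
theorem sum_slash_slash_eq {ι : Type*} [Fintype ι] (k : ℤ) (Γ : Subgroup (GL (Fin 2) ℝ))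
    {f : ℍ → ℂ} (hf : ∀ γ ∈ Γ, f ∣[k] γ = f) (R S : ι → GL (Fin 2) ℝ) (X : GL (Fin 2) ℝ)
    (hex : ∀ x, ∃ y, ∃ γ ∈ Γ, R x * X = γ * S y)
    (huniq : ∀ x y, ∀ γ ∈ Γ, R x = γ * R y → x = y) :
    (∑ x, f ∣[k] R x) ∣[k] X = ∑ y, f ∣[k] S y := by
  classical
  choose π γ hγ hmul using hex
  have hinj : Function.Injective π := by
    intro x x' h
    refine huniq x x' (γ x * (γ x')⁻¹) (mul_mem (hγ x) (inv_mem (hγ x'))) ?_
    have h1 := hmul x
    have h2 : S (π x) = (γ x')⁻¹ * (R x' * X) := by rw [hmul x', h, inv_mul_cancel_left]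
    rw [h2, ← mul_assoc, ← mul_assoc] at h1
    exact mul_right_cancel h1
  rw [SlashAction.sum_slash]
  calc ∑ x, (f ∣[k] R x) ∣[k] X = ∑ x, f ∣[k] S (π x) := by
        refine Finset.sum_congr rfl fun x _ => ?_
        rw [← SlashAction.slash_mul, hmul x, SlashAction.slash_mul, hf _ (hγ x)]
    _ = ∑ y, f ∣[k] S y :=
        (Finite.injective_iff_bijective.mp hinj).sum_comp fun y => f ∣[k] S y

section Scalar

/-- The scalar matrix `q`. -/
def scalarGL (q : ℕ) : GL (Fin 2) ℝ :=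
  if hq : q = 0 then 1 else upperTriangularGL q 0 q (by
    have : (q : ℝ) ≠ 0 := by exact_mod_cast hq
    exact mul_ne_zero this this)

/-- The matrix of `scalarGL q`. -/
theorem val_scalarGL {q : ℕ} (hq : q ≠ 0) :
    ((scalarGL q : GL (Fin 2) ℝ) : Matrix (Fin 2) (Fin 2) ℝ) = !![(q : ℝ), 0; 0, (q : ℝ)] := by
  simp [scalarGL, hq]

theorem det_scalarGL {q : ℕ} (hq : q ≠ 0) : ((scalarGL q).det : ℝ) = (q : ℝ) * q := by
  rw [Matrix.GeneralLinearGroup.val_det_apply, val_scalarGL hq, Matrix.det_fin_two_of]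
  ring

theorem det_scalarGL_pos {q : ℕ} (hq : q ≠ 0) : 0 < ((scalarGL q).det : ℝ) := by
  rw [det_scalarGL hq]
  have : 0 < (q : ℝ) := by exact_mod_cast Nat.pos_of_ne_zero hq
  positivity

/-- Scalars act trivially in weight two. -/
theorem slash_scalarGL {q : ℕ} (hq : q ≠ 0) (f : ℍ → ℂ) :
    f ∣[(2 : ℤ)] scalarGL q = f := by
  have hq' : (q : ℂ) ≠ 0 := by exact_mod_cast hq
  funext τ
  have hsmul : scalarGL q • τ = τ := by
    apply UpperHalfPlane.ext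
    rw [UpperHalfPlane.coe_smul_of_det_pos (det_scalarGL_pos hq)]
    simp [UpperHalfPlane.num, UpperHalfPlane.denom, val_scalarGL hq, hq']
  have hden : UpperHalfPlane.denom (scalarGL q) τ = q := by
    simp [UpperHalfPlane.denom, val_scalarGL hq]
  rw [ModularForm.slash_apply, hsmul, hden, UpperHalfPlane.σ, if_pos (det_scalarGL_pos hq),
    det_scalarGL hq, abs_mul_self]
  simp only [ContinuousAlgEquiv.refl_apply]
  push_cast
  rw [zpow_one, zpow_neg, zpow_two]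
  field_simp

end Scalar

section Reps

/-- Coset representatives of `T_ℓ`. -/
def tRep (ℓ : ℕ) : Option (Fin ℓ) → GL (Fin 2) ℝ
  | none => heckeDiagMatrix ℓ
  | some j => heckeMatrix ℓ j

theorem heckeT_eq_sum_tRep (k : ℤ) (ℓ : ℕ) (f : ℍ → ℂ) :
    heckeT k ℓ f = ∑ x, f ∣[k] tRep ℓ x := by
  rw [Fintype.sum_option, heckeT_def, add_comm]
  congr 1
  exact (Fin.sum_univ_eq_sum_range (fun j => f ∣[k] heckeMatrix ℓ j) ℓ).symm

theorem heckeU_eq_sum_fin (k : ℤ) (q : ℕ) (f : ℍ → ℂ) :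
    heckeU k q f = ∑ j : Fin q, f ∣[k] heckeMatrix q j := by
  rw [heckeU_def]
  exact (Fin.sum_univ_eq_sum_range (fun j => f ∣[k] heckeMatrix q j) q).symm

theorem tRep_inj {ℓ : ℕ} (hℓ : ℓ.Prime) (x y : Option (Fin ℓ)) (g : SL(2, ℤ))
    (h : tRep ℓ x = mapGL ℝ g * tRep ℓ y) : x = y := by
  have hp := hℓ.ne_zero
  have hone : ∀ a : ℤ, (1 : ℝ) ≠ (a : ℝ) * (ℓ : ℝ) := by
    intro a ha
    have : (1 : ℤ) = a * ℓ := by exact_mod_cast ha
    have h1 : (ℓ : ℤ) ∣ 1 := ⟨a, by linarith⟩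
    exact hℓ.one_lt.ne' (Nat.dvd_one.mp (by exact_mod_cast h1))
  have h' := congrArg (fun u : GL (Fin 2) ℝ => (u : Matrix (Fin 2) (Fin 2) ℝ)) h
  rcases x with _ | i <;> rcases y with _ | j <;>
    simp [tRep, hp, ← Matrix.ext_iff, Fin.forall_fin_two, Matrix.mul_apply,
      Fin.sum_univ_two] at h' <;>
    obtain ⟨⟨h00, h01⟩, h10, h11⟩ := h'
  · rfl
  · exfalso
    exact hone (g 1 1) (by simpa [← h10] using h11)
  · exfalso
    exact hone (g 0 0) h00
  · have e00 : g 0 0 = 1 := by exact_mod_cast h00.symm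
    have e : (i : ℤ) = g 0 0 * j + g 0 1 * ℓ := by exact_mod_cast h01
    rw [e00, one_mul] at e
    have hi := i.isLt
    have hj := j.isLt
    have : ((i : ℕ) : ZMod ℓ) = ((j : ℕ) : ZMod ℓ) := by
      have := congrArg (fun z : ℤ => (z : ZMod ℓ)) e
      simpa using this
    have := congrArg ZMod.val this
    rw [ZMod.val_cast_of_lt hi, ZMod.val_cast_of_lt hj] at this
    exact congrArg some (Fin.ext this)

/-- Every integral matrix of determinant `ℓ` with lower left entry divisible by `N` lies in some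
`Γ₀(N) tRep ℓ x`. -/
theorem exists_eq_mapGL_mul_tRep {N ℓ : ℕ} (hℓ : ℓ.Prime) (hℓN : ¬ ℓ ∣ N) (a b c d : ℤ)
    (hc : (N : ℤ) ∣ c) (hdet : a * d - b * c = ℓ) :
    ∃ x : Option (Fin ℓ), ∃ g : SL(2, ℤ), (N : ℤ) ∣ g 1 0 ∧
      ((mapGL ℝ g * tRep ℓ x : GL (Fin 2) ℝ) : Matrix (Fin 2) (Fin 2) ℝ) =
        !![(a : ℝ), (b : ℝ); (c : ℝ), (d : ℝ)] := by
  have : Fact ℓ.Prime := ⟨hℓ⟩
  have hp := hℓ.ne_zero
  by_cases hcol : (a : ZMod ℓ) = 0 ∧ (c : ZMod ℓ) = 0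
  · obtain ⟨a', rfl⟩ := (ZMod.intCast_zmod_eq_zero_iff_dvd _ _).mp hcol.1
    obtain ⟨c', rfl⟩ := (ZMod.intCast_zmod_eq_zero_iff_dvd _ _).mp hcol.2
    have hd : a' * d - b * c' = 1 := by
      have hℓ' : (ℓ : ℤ) ≠ 0 := by exact_mod_cast hp
      exact mul_left_cancel₀ hℓ' (by linear_combination hdet)
    refine ⟨none, mkSL a' b c' d hd, ?_, ?_⟩
    · exact (Nat.isCoprime_iff_coprime.mpr
        ((Nat.Prime.coprime_iff_not_dvd hℓ).mpr hℓN).symm).dvd_of_dvd_mul_left hc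
    · ext i j
      fin_cases i <;> fin_cases j <;> simp [tRep, hp, Matrix.mul_apply, Fin.sum_univ_two] <;>
        ring
  · have hd0 : (a : ZMod ℓ) * d - (b : ZMod ℓ) * c = 0 := by
      have := congrArg (fun z : ℤ => (z : ZMod ℓ)) hdet
      simpa using this
    obtain ⟨j, hj1, hj2⟩ : ∃ j : ZMod ℓ, (b : ZMod ℓ) = j * a ∧ (d : ZMod ℓ) = j * c := by
      by_cases ha : (a : ZMod ℓ) = 0
      · have hc0 : (c : ZMod ℓ) ≠ 0 := fun h => hcol ⟨ha, h⟩
        refine ⟨(d : ZMod ℓ) / c, ?_, by field_simp⟩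
        rw [ha, mul_zero]
        rw [ha, zero_mul, zero_sub, neg_eq_zero, mul_eq_zero] at hd0
        exact hd0.resolve_right hc0
      · refine ⟨(b : ZMod ℓ) / a, by field_simp, ?_⟩
        field_simp
        linear_combination hd0
    obtain ⟨e, he⟩ : (ℓ : ℤ) ∣ b - j.val * a := by
      rw [← ZMod.intCast_zmod_eq_zero_iff_dvd]
      push_cast
      rw [ZMod.natCast_zmod_val, hj1, sub_self]
    obtain ⟨f, hf⟩ : (ℓ : ℤ) ∣ d - j.val * c := by
      rw [← ZMod.intCast_zmod_eq_zero_iff_dvd]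
      push_cast
      rw [ZMod.natCast_zmod_val, hj2, sub_self]
    have hd : a * f - e * c = 1 := by
      have hℓ' : (ℓ : ℤ) ≠ 0 := by exact_mod_cast hp
      exact mul_left_cancel₀ hℓ' (by linear_combination hdet - a * hf + c * he)
    refine ⟨some ⟨j.val, j.val_lt⟩, mkSL a e c f hd, hc, ?_⟩
    have heR := congrArg (Int.cast : ℤ → ℝ) he
    have hfR := congrArg (Int.cast : ℤ → ℝ) hf
    push_cast at heR hfR
    ext i k
    fin_cases i <;> fin_cases k <;> simp [tRep, hp, Matrix.mul_apply, Fin.sum_univ_two,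
      -ZMod.natCast_val]
    · linear_combination -heR
    · linear_combination -hfR

end Reps

section UDrop

/-- If `q ∣ M` and `f` has level `q * M`, then `U_q f` has level `M`. -/
theorem heckeU_slash_of_dvd (k : ℤ) {q M : ℕ} (hq : q.Prime) (hqM : q ∣ M) {f : ℍ → ℂ}
    (hf : ∀ γ ∈ gamma0GL (q * M), f ∣[k] γ = f) :
    ∀ γ ∈ gamma0GL M, heckeU k q f ∣[k] γ = heckeU k q f := by
  rintro _ ⟨g, hg, rfl⟩
  replace hg : (M : ℤ) ∣ g 1 0 := mem_Gamma0_iff.mp hg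
  have : Fact q.Prime := ⟨hq⟩
  rw [heckeU_eq_sum_fin]
  refine sum_slash_slash_eq k (gamma0GL (q * M)) hf _ _ _ (fun x => ?_) (fun x y γ hγ h => ?_)
  · have hc : ((g 1 0 : ℤ) : ZMod q) = 0 :=
      (ZMod.intCast_zmod_eq_zero_iff_dvd _ _).mpr ((Int.natCast_dvd_natCast.mpr hqM).trans hg)
    have hunit : ((g 0 0 : ℤ) : ZMod q) * ((g 1 1 : ℤ) : ZMod q) = 1 := by
      have := congrArg (fun z : ℤ => (z : ZMod q)) (det_SL g)
      push_cast at this
      linear_combination this + ((g 0 1 : ℤ) : ZMod q) * hc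
    set y : ZMod q :=
      ((g 1 1 : ℤ) : ZMod q) * (((g 0 1 : ℤ) : ZMod q) + (x : ℕ) * ((g 1 1 : ℤ) : ZMod q)) with hy
    obtain ⟨e, he⟩ : (q : ℤ) ∣ g 0 1 + (x : ℕ) * g 1 1 - y.val * (g 0 0 + (x : ℕ) * g 1 0) := by
      rw [← ZMod.intCast_zmod_eq_zero_iff_dvd]
      push_cast
      rw [ZMod.natCast_zmod_val, hy]
      linear_combination (-(((g 0 1 : ℤ) : ZMod q) + (x : ℕ) * ((g 1 1 : ℤ) : ZMod q))) * hunit
        - (((g 1 1 : ℤ) : ZMod q) * (((g 0 1 : ℤ) : ZMod q) + (x : ℕ) * ((g 1 1 : ℤ) : ZMod q))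
          * (x : ℕ)) * hc
    refine ⟨⟨y.val, y.val_lt⟩, mapGL ℝ (mkSL (g 0 0 + (x : ℕ) * g 1 0) e (q * g 1 0)
      (g 1 1 - g 1 0 * y.val) ?_), mapGL_mem_gamma0GL ?_, ?_⟩
    · linear_combination det_SL g + (g 1 0) * he
    · show ((q * M : ℕ) : ℤ) ∣ (q : ℤ) * g 1 0
      push_cast
      exact mul_dvd_mul_left _ hg
    · have heR := congrArg (Int.cast : ℤ → ℝ) he
      push_cast at heR
      ext i j
      fin_cases i <;> fin_cases j <;> simp [hq.ne_zero, Matrix.mul_apply, Fin.sum_univ_two,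
        -ZMod.natCast_val]
      all_goals first
        | linear_combination heR
        | linear_combination -heR
        | ring
  · obtain ⟨g', -, rfl⟩ := hγ
    exact Option.some_injective _ (tRep_inj hq (some x) (some y) g' h)

end UDrop

section AtkinLehner

/-- `g₀ = (1, b; M, q d)`. -/
def alSL (q M : ℕ) (b d : ℤ) (h : (q : ℤ) * d - (M : ℤ) * b = 1) : SL(2, ℤ) :=
  mkSL 1 b (M : ℤ) ((q : ℤ) * d) (by linarith)

/-- The Atkin-Lehner matrix `W = (q, b; q M, q d) = g₀ · diag(q, 1)`. -/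
def alW (q M : ℕ) (b d : ℤ) (h : (q : ℤ) * d - (M : ℤ) * b = 1) : GL (Fin 2) ℝ :=
  mapGL ℝ (alSL q M b d h) * heckeDiagMatrix q

variable {q M : ℕ} {b d : ℤ} (h : (q : ℤ) * d - (M : ℤ) * b = 1)
include h

/-- The entries of the Atkin-Lehner matrix. -/
theorem val_alW (hq : q ≠ 0) : ((alW q M b d h : GL (Fin 2) ℝ) : Matrix (Fin 2) (Fin 2) ℝ) =
    !![(q : ℝ), (b : ℝ); (q : ℝ) * (M : ℝ), (q : ℝ) * (d : ℝ)] := by
  ext i j
  fin_cases i <;> fin_cases j <;> simp [alW, alSL, hq, Matrix.mul_apply, Fin.sum_univ_two]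
  ring

/-- The Atkin-Lehner matrix has positive determinant. -/
theorem det_alW_pos : 0 < ((alW q M b d h).det : ℝ) := by
  rw [alW, map_mul, Units.val_mul]
  exact mul_pos (det_mapGL_pos _) (det_heckeDiagMatrix_pos q)

/-- The Atkin-Lehner matrix acts holomorphically. -/
theorem σ_alW : UpperHalfPlane.σ (alW q M b d h) = .refl ℝ ℂ := by
  rw [UpperHalfPlane.σ, if_pos (det_alW_pos h)]

/-- The Atkin-Lehner operator is linear in scalars. -/
theorem alW_slash_smul (k : ℤ) (f : ℍ → ℂ) (a : ℂ) :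
    (a • f) ∣[k] alW q M b d h = a • (f ∣[k] alW q M b d h) := by
  rw [ModularForm.smul_slash, σ_alW, ContinuousAlgEquiv.refl_apply]

/-- `W` normalises `Γ₀(q M)`. -/
theorem exists_alW_mul (hq : q ≠ 0) (g : SL(2, ℤ)) (hg : ((q * M : ℕ) : ℤ) ∣ g 1 0) :
    ∃ g' : SL(2, ℤ), ((q * M : ℕ) : ℤ) ∣ g' 1 0 ∧
      alW q M b d h * mapGL ℝ g = mapGL ℝ g' * alW q M b d h := by
  obtain ⟨z, hz⟩ := hg
  push_cast at hz
  have hdet := det_SL g
  rw [hz] at hdet
  set x := g 0 0 with hx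
  set y := g 0 1 with hy
  set w := g 1 1 with hw
  refine ⟨mkSL (((q : ℤ) * x + b * (q * M) * z) * d - ((q : ℤ) * y + b * w) * M)
      (-b * x - b ^ 2 * M * z + q * y + b * w)
      (((q : ℤ) * M) * (d * (x + q * d * z) - M * y - d * w))
      (-b * M * (x + q * d * z) + (q * M) * y + q * d * w) ?_, ⟨_, by push_cast; rfl⟩, ?_⟩
  · linear_combination (((q : ℤ) * d - M * b) ^ 2) * hdet + (((q : ℤ) * d - M * b) + 1) * h
  · have hR := congrArg (Int.cast : ℤ → ℝ) h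
    have hzR := congrArg (Int.cast : ℤ → ℝ) hz
    push_cast at hR hzR
    ext i j
    fin_cases i <;> fin_cases j <;>
      simp [val_alW h hq, Matrix.mul_apply, Fin.sum_univ_two, ← hx, ← hy, ← hw]
    · linear_combination (b : ℝ) * hzR - ((q : ℝ) * x + (q : ℝ) * M * b * z) * hR
    · linear_combination -((q : ℝ) * y + b * w) * hR
    · linear_combination (q : ℝ) * d * hzR - (q : ℝ) * M * (x + q * d * z) * hR
    · linear_combination -((q : ℝ) * M * y + q * d * w) * hR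

/-- The Atkin-Lehner matrix normalises `Γ₀(q M)`. -/
theorem slash_alW_slash (k : ℤ) (hq : q ≠ 0) {f : ℍ → ℂ}
    (hf : ∀ γ ∈ gamma0GL (q * M), f ∣[k] γ = f) :
    ∀ γ ∈ gamma0GL (q * M), (f ∣[k] alW q M b d h) ∣[k] γ = f ∣[k] alW q M b d h := by
  rintro _ ⟨g, hg, rfl⟩
  obtain ⟨g', hg', hmul⟩ := exists_alW_mul h hq g (mem_Gamma0_iff.mp hg)
  rw [← SlashAction.slash_mul, hmul, SlashAction.slash_mul, hf _ (mapGL_mem_gamma0GL hg')]

/-- The square of the Atkin-Lehner matrix is a scalar times an element of `Γ₀(q M)`. -/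
theorem exists_alW_mul_self (hq : q ≠ 0) :
    ∃ g : SL(2, ℤ), ((q * M : ℕ) : ℤ) ∣ g 1 0 ∧
      alW q M b d h * alW q M b d h = mapGL ℝ g * scalarGL q := by
  refine ⟨mkSL ((q : ℤ) + b * M) (b * (1 + d)) ((q * M) * (1 + d)) (b * M + q * d ^ 2) ?_,
    ⟨_, by push_cast; rfl⟩, ?_⟩
  · linear_combination (((q : ℤ) * d - M * b) + 1) * h
  · ext i j
    fin_cases i <;> fin_cases j <;>
      simp [val_alW h hq, val_scalarGL hq, Matrix.mul_apply, Fin.sum_univ_two] <;> ring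

/-- The Atkin-Lehner operator is an involution in weight two. -/
theorem slash_alW_alW (hq : q ≠ 0) {f : ℍ → ℂ}
    (hf : ∀ γ ∈ gamma0GL (q * M), f ∣[(2 : ℤ)] γ = f) :
    (f ∣[(2 : ℤ)] alW q M b d h) ∣[(2 : ℤ)] alW q M b d h = f := by
  obtain ⟨g, hg, hmul⟩ := exists_alW_mul_self h hq
  rw [← SlashAction.slash_mul, hmul, SlashAction.slash_mul, hf _ (mapGL_mem_gamma0GL hg),
    slash_scalarGL hq]

/-- `T_ℓ` commutes with `W`. -/
theorem heckeT_slash_alW (k : ℤ) (hq : q ≠ 0) {ℓ : ℕ} (hℓ : ℓ.Prime) (hℓN : ¬ ℓ ∣ q * M)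
    {f : ℍ → ℂ} (hf : ∀ γ ∈ gamma0GL (q * M), f ∣[k] γ = f) :
    heckeT k ℓ (f ∣[k] alW q M b d h) = heckeT k ℓ f ∣[k] alW q M b d h := by
  rw [heckeT_eq_sum_tRep, heckeT_eq_sum_tRep]
  simp only [← SlashAction.slash_mul]
  refine (sum_slash_slash_eq k (gamma0GL (q * M)) hf _ (fun y => alW q M b d h * tRep ℓ y) _
    (fun x => ?_) (fun x y γ hγ e => ?_)).symm
  · obtain ⟨x', w, y, hval, hdet⟩ : ∃ x' w y : ℤ,
        ((tRep ℓ x : GL (Fin 2) ℝ) : Matrix (Fin 2) (Fin 2) ℝ) = !![(x' : ℝ), (y : ℝ); 0, (w : ℝ)]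
          ∧ x' * w = ℓ := by
      rcases x with _ | j
      · exact ⟨ℓ, 1, 0, by simp [tRep, hℓ.ne_zero], by ring⟩
      · exact ⟨1, ℓ, (j : ℕ), by simp [tRep, hℓ.ne_zero], by ring⟩
    obtain ⟨y', g, hg, heq⟩ := exists_eq_mapGL_mul_tRep hℓ hℓN
      ((q : ℤ) * d * x' + M * (q * d * y - b * w)) (b * d * x' + q * d ^ 2 * y - b * d * w)
      (((q * M : ℕ) : ℤ) * (-x' - M * y + w)) (-b * M * x' - d * (q * M) * y + q * d * w)
      (dvd_mul_right _ _)
      (by push_cast; linear_combination (((q : ℤ) * d - M * b) ^ 2) * hdet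
            + (ℓ : ℤ) * (((q : ℤ) * d - M * b) + 1) * h)
    obtain ⟨g', hg', hmul⟩ := exists_alW_mul h hq g hg
    refine ⟨y', mapGL ℝ g', mapGL_mem_gamma0GL hg', ?_⟩
    rw [← mul_assoc, ← hmul, mul_assoc]
    refine Units.ext ?_
    push_cast
    rw [show ((mapGL ℝ g : GL (Fin 2) ℝ) : Matrix (Fin 2) (Fin 2) ℝ) *
      (tRep ℓ y' : Matrix (Fin 2) (Fin 2) ℝ) = _ from heq, hval, val_alW h hq]
    have hR := congrArg (Int.cast : ℤ → ℝ) h
    push_cast at hR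
    ext i j
    fin_cases i <;> fin_cases j <;> simp [Matrix.mul_apply, Fin.sum_univ_two]
    · linear_combination -((x' : ℝ) * q + y * q * M) * hR
    · linear_combination -((x' : ℝ) * b + y * q * d) * hR
    · linear_combination -((w : ℝ) * q * M) * hR
    · linear_combination -((w : ℝ) * q * d) * hR
  · obtain ⟨g', -, rfl⟩ := hγ
    exact tRep_inj hℓ x y g' e

/-- Coset representatives of `Γ₀(q M)` in `Γ₀(M)`. -/
def trRep : Option (Fin q) → SL(2, ℤ)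
  | none => 1
  | some j => mkSL 1 ((j : ℕ) + b) (M : ℤ) ((M : ℤ) * (j : ℕ) + q * d) (by linear_combination h)

theorem slash_trRep_sum (hq : q ≠ 0) {f : ℍ → ℂ} :
    f + heckeU 2 q (f ∣[(2 : ℤ)] alW q M b d h) =
      ∑ x, f ∣[(2 : ℤ)] mapGL ℝ (trRep h x) := by
  rw [Fintype.sum_option, heckeU_eq_sum_fin]
  congr 1
  · simp [trRep]
  · refine Finset.sum_congr rfl fun j _ => ?_
    have : alW q M b d h * heckeMatrix q j = mapGL ℝ (trRep h (some j)) * scalarGL q := by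
      ext i k
      fin_cases i <;> fin_cases k <;>
        simp [val_alW h hq, val_scalarGL hq, trRep, hq, Matrix.mul_apply, Fin.sum_univ_two] <;> ring
    rw [← SlashAction.slash_mul, this, SlashAction.slash_mul, slash_scalarGL hq]

/-- The `trRep` represent all cosets of `Γ₀(q M)` in `Γ₀(M)`. -/
theorem exists_trRep (hq : q.Prime) (hqM : ¬ q ∣ M) (g : SL(2, ℤ)) (hg : (M : ℤ) ∣ g 1 0) :
    ∃ x : Option (Fin q), ∃ γ : SL(2, ℤ), ((q * M : ℕ) : ℤ) ∣ γ 1 0 ∧ g = γ * trRep h x := by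
  have : Fact q.Prime := ⟨hq⟩
  have hcop : IsCoprime (q : ℤ) (M : ℤ) :=
    Nat.isCoprime_iff_coprime.mpr ((Nat.Prime.coprime_iff_not_dvd hq).mpr hqM)
  by_cases hc : ((g 1 0 : ℤ) : ZMod q) = 0
  · refine ⟨none, g, ?_, by simp [trRep]⟩
    push_cast
    exact hcop.mul_dvd ((ZMod.intCast_zmod_eq_zero_iff_dvd _ _).mp hc) hg
  · set j : ZMod q := ((g 1 1 : ℤ) : ZMod q) / ((g 1 0 : ℤ) : ZMod q) with hj
    refine ⟨some ⟨j.val, j.val_lt⟩, g * (trRep h (some ⟨j.val, j.val_lt⟩))⁻¹, ?_, by simp⟩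
    have e : (g * (trRep h (some ⟨j.val, j.val_lt⟩))⁻¹) 1 0 =
        g 1 0 * ((M : ℤ) * (j.val : ℤ) + q * d) - g 1 1 * M := by
      rw [Matrix.SpecialLinearGroup.coe_mul, Matrix.SpecialLinearGroup.coe_inv]
      simp [trRep, Matrix.adjugate_fin_two, Matrix.mul_apply, Fin.sum_univ_two, sub_eq_add_neg]
    rw [e]
    push_cast
    refine hcop.mul_dvd ?_ (dvd_sub (Dvd.dvd.mul_right hg _) (dvd_mul_left _ _))
    rw [← ZMod.intCast_zmod_eq_zero_iff_dvd]
    push_cast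
    rw [ZMod.natCast_zmod_val, hj, ZMod.natCast_self]
    field_simp
    ring

/-- The `trRep` represent distinct cosets. -/
theorem trRep_inj (hq : q.Prime) (hqM : ¬ q ∣ M) (x y : Option (Fin q)) (γ : SL(2, ℤ))
    (hγ : ((q * M : ℕ) : ℤ) ∣ γ 1 0) (e : trRep h x = γ * trRep h y) : x = y := by
  have : Fact q.Prime := ⟨hq⟩
  have hM : (M : ZMod q) ≠ 0 := by rwa [Ne, ZMod.natCast_eq_zero_iff]
  have hγq : ((γ 1 0 : ℤ) : ZMod q) = 0 := by
    rw [ZMod.intCast_zmod_eq_zero_iff_dvd]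
    exact dvd_trans ⟨(M : ℤ), by push_cast; rfl⟩ hγ
  have e10 := congrArg (fun u : SL(2, ℤ) => ((u 1 0 : ℤ) : ZMod q)) e
  have e11 := congrArg (fun u : SL(2, ℤ) => ((u 1 1 : ℤ) : ZMod q)) e
  rcases x with _ | i <;> rcases y with _ | j <;>
    simp [trRep, Matrix.mul_apply, Fin.sum_univ_two, hγq] at e10 e11 ⊢
  · simp_all
  · simp_all
  · have hij : ((i : ℕ) : ZMod q) = ((j : ℕ) : ZMod q) := by
      have h1 : ((γ 1 1 : ℤ) : ZMod q) = 1 :=
        mul_right_cancel₀ hM (by rw [one_mul]; exact e10.symm)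
      rw [h1, one_mul] at e11
      exact mul_left_cancel₀ hM e11
    have := congrArg ZMod.val hij
    rwa [ZMod.val_cast_of_lt i.isLt, ZMod.val_cast_of_lt j.isLt, ← Fin.ext_iff] at this

/-- The trace `f + U_q (f | W)` of a form of level `q M` has level `M`. -/
theorem trace_slash (hq : q.Prime) (hqM : ¬ q ∣ M) {f : ℍ → ℂ}
    (hf : ∀ γ ∈ gamma0GL (q * M), f ∣[(2 : ℤ)] γ = f) :
    ∀ γ ∈ gamma0GL M, (f + heckeU 2 q (f ∣[(2 : ℤ)] alW q M b d h)) ∣[(2 : ℤ)] γ =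
      f + heckeU 2 q (f ∣[(2 : ℤ)] alW q M b d h) := by
  rintro _ ⟨g, hg, rfl⟩
  replace hg : (M : ℤ) ∣ g 1 0 := mem_Gamma0_iff.mp hg
  rw [slash_trRep_sum h hq.ne_zero]
  refine sum_slash_slash_eq 2 (gamma0GL (q * M)) hf _ _ _ (fun x => ?_) (fun x y γ hγ e => ?_)
  · have hR : (M : ℤ) ∣ (trRep h x) 1 0 := by
      rcases x with _ | j <;> simp [trRep]
    have hxg : (M : ℤ) ∣ (trRep h x * g) 1 0 :=
      mem_Gamma0_iff.mp (mul_mem (mem_Gamma0_iff.mpr hR) (mem_Gamma0_iff.mpr hg))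
    obtain ⟨y, γ, hγ, hmul⟩ := exists_trRep h hq hqM _ hxg
    exact ⟨y, mapGL ℝ γ, mapGL_mem_gamma0GL hγ, by rw [← map_mul, hmul, map_mul]⟩
  · obtain ⟨g', hg', rfl⟩ := hγ
    rw [← map_mul] at e
    exact trRep_inj h hq hqM x y g' (mem_Gamma0_iff.mp hg')
      (Matrix.SpecialLinearGroup.mapGL_injective e)

end AtkinLehner

end Fermat.Agent.Newforms
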