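import Fermat.Prelude.Def_CuspForm_HeckeAlgebra
import Fermat.Prelude.Def_FLTPrelim_ModularRep
import Fermat.Agent.HeckeLift.Basic
import Fermat.Agent.Newforms.Matrices

/-!
# Changing the level of cusp forms; eigenforms as eigenvectors

`raise` and `degen` are the two degeneracy maps to a higher level. A normalised eigenform is an
eigenvector of all `T_ℓ` and `U_q`, and conversely a common eigenvector yields a normalised
eigenform with the same eigenvalues (`exists_eigenform_of_eigenvector`).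
-/

set_option autoImplicit false

noncomputable section

open ModularFormClass UpperHalfPlane CongruenceSubgroup ModularForm
open scoped MatrixGroups ModularForm Manifold

namespace Fermat.Agent.Newforms

open Fermat.Agent.HeckeLift (qCoeff_smul qCoeff_add qCoeff_sub qCoeff_zero qCoeff_at_zero
  qCoeff_heckeTLin qCoeff_heckeULin eq_zero_of_qCoeff)

variable {N : ℕ} {k : ℤ}

/-- The conditions on a function other than invariance that make it a cusp form of every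
congruence level. -/
def IsCuspidalFun (k : ℤ) (F : ℍ → ℂ) : Prop :=
  MDifferentiable (modelWithCornersSelf ℂ ℂ) (modelWithCornersSelf ℂ ℂ) F ∧
    ∀ c : OnePoint ℝ, IsCusp c (𝒮ℒ) → c.IsZeroAt F k

theorem isCusp_gamma0_iff [NeZero N] {c : OnePoint ℝ} : IsCusp c (gamma0GL N) ↔ IsCusp c (𝒮ℒ) :=
  Subgroup.IsArithmetic.isCusp_iff_isCusp_SL2Z _

/-- A cusp form is a cuspidal function. -/
theorem isCuspidalFun_coe [NeZero N] (f : CuspForm (Gamma0 N) k) : IsCuspidalFun k ⇑f :=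
  ⟨CuspFormClass.holo f, fun _ hc => CuspFormClass.zero_at_cusps f (isCusp_gamma0_iff.mpr hc)⟩

/-- Cuspidal functions are closed under addition. -/
theorem IsCuspidalFun.add {F G : ℍ → ℂ} (hF : IsCuspidalFun k F) (hG : IsCuspidalFun k G) :
    IsCuspidalFun k (F + G) :=
  ⟨hF.1.add hG.1, fun c hc => (hF.2 c hc).add (hG.2 c hc)⟩

/-- A slash-invariant cuspidal function, as a cusp form. -/
def mkCuspForm (N : ℕ) [NeZero N] (k : ℤ) (F : ℍ → ℂ) (hF : IsCuspidalFun k F)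
    (hinv : ∀ γ ∈ gamma0GL N, F ∣[k] γ = F) : CuspForm (Gamma0 N) k where
  toFun := F
  slash_action_eq' := hinv
  holo' := hF.1
  zero_at_cusps' hc := hF.2 _ (isCusp_gamma0_iff.mp hc)

/-- The function underlying `mkCuspForm`. -/
@[simp] theorem coe_mkCuspForm (N : ℕ) [NeZero N] (k : ℤ) (F : ℍ → ℂ) (hF : IsCuspidalFun k F)
    (hinv : ∀ γ ∈ gamma0GL N, F ∣[k] γ = F) : ⇑(mkCuspForm N k F hF hinv) = F := rfl

/-- A cusp form is invariant under its level. -/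
theorem slash_eq_coe (f : CuspForm (Gamma0 N) k) : ∀ γ ∈ gamma0GL N, ⇑f ∣[k] γ = ⇑f :=
  fun γ hγ => SlashInvariantFormClass.slash_action_eq f γ hγ

theorem slash_eq_of_dvd {M : ℕ} (hMN : M ∣ N) {F : ℍ → ℂ}
    (hF : ∀ γ ∈ gamma0GL M, F ∣[k] γ = F) : ∀ γ ∈ gamma0GL N, F ∣[k] γ = F := by
  rintro _ ⟨g, hg, rfl⟩
  exact hF _ (mapGL_mem_gamma0GL ((Int.natCast_dvd_natCast.mpr hMN).trans (mem_Gamma0_iff.mp hg)))

/-- A form of level `M` seen at a level `N` which `M` divides. -/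
def raise {M : ℕ} [NeZero M] (N : ℕ) [NeZero N] (hMN : M ∣ N) (f : CuspForm (Gamma0 M) k) :
    CuspForm (Gamma0 N) k :=
  mkCuspForm N k ⇑f (isCuspidalFun_coe f) (slash_eq_of_dvd hMN (slash_eq_coe f))

/-- Raising the level does not change the function. -/
@[simp] theorem coe_raise {M : ℕ} [NeZero M] (N : ℕ) [NeZero N] (hMN : M ∣ N)
    (f : CuspForm (Gamma0 M) k) : ⇑(raise N hMN f) = ⇑f := rfl

/-- Cuspidality is preserved by rational matrices. -/
theorem IsCuspidalFun.slash_ratMap {F : ℍ → ℂ} (hF : IsCuspidalFun k F) (g : GL (Fin 2) ℚ) :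
    IsCuspidalFun k (F ∣[k] Matrix.GeneralLinearGroup.map (Rat.castHom ℝ) g) := by
  refine ⟨hF.1.slash k _, fun c hc => ?_⟩
  refine OnePoint.IsZeroAt.smul_iff.mp (hF.2 _ ?_)
  rw [isCusp_SL2Z_iff] at hc ⊢
  obtain ⟨c, rfl⟩ := hc
  exact ⟨g • c, by rw [← Rat.coe_castHom, OnePoint.map_smul]⟩

theorem exists_mapGL_eq_ratMap (g : SL(2, ℤ)) :
    ∃ g' : GL (Fin 2) ℚ,
      Matrix.GeneralLinearGroup.map (Rat.castHom ℝ) g' = Matrix.SpecialLinearGroup.mapGL ℝ g :=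
  ⟨Matrix.SpecialLinearGroup.mapGL ℚ g, by ext i j; simp⟩

theorem exists_heckeDiag_eq_ratMap (p : ℕ) :
    ∃ g' : GL (Fin 2) ℚ,
      Matrix.GeneralLinearGroup.map (Rat.castHom ℝ) g' = heckeDiagMatrix p := by
  rcases eq_or_ne p 0 with rfl | hp
  · exact ⟨1, by simp⟩
  · refine ⟨Matrix.GeneralLinearGroup.mkOfDetNeZero !![(p : ℚ), 0; 0, 1] (by simpa using hp), ?_⟩
    ext i j
    fin_cases i <;> fin_cases j <;> simp [hp, Matrix.GeneralLinearGroup.mkOfDetNeZero]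

/-- Cuspidality is preserved by `diag(p, 1)`. -/
theorem IsCuspidalFun.slash_heckeDiag {F : ℍ → ℂ} (hF : IsCuspidalFun k F) (p : ℕ) :
    IsCuspidalFun k (F ∣[k] heckeDiagMatrix p) := by
  obtain ⟨g, hg⟩ := exists_heckeDiag_eq_ratMap p
  exact hg ▸ hF.slash_ratMap g

/-- Cuspidality is preserved by `SL₂(ℤ)`. -/
theorem IsCuspidalFun.slash_mapGL {F : ℍ → ℂ} (hF : IsCuspidalFun k F) (g : SL(2, ℤ)) :
    IsCuspidalFun k (F ∣[k] Matrix.SpecialLinearGroup.mapGL ℝ g) := by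
  obtain ⟨g', hg⟩ := exists_mapGL_eq_ratMap g
  exact hg ▸ hF.slash_ratMap g'

/-- Cuspidality is preserved by the Atkin-Lehner matrix. -/
theorem IsCuspidalFun.slash_alW {F : ℍ → ℂ} (hF : IsCuspidalFun k F) {q M : ℕ} {b d : ℤ}
    (h : (q : ℤ) * d - (M : ℤ) * b = 1) : IsCuspidalFun k (F ∣[k] alW q M b d h) := by
  rw [alW, SlashAction.slash_mul]
  exact (hF.slash_mapGL _).slash_heckeDiag q

/-- `f ↦ f ∣ diag(r, 1)`, from level `M` to level `r * M`. -/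
theorem slash_heckeDiag_invariant {r M : ℕ} (hr : r ≠ 0) {F : ℍ → ℂ}
    (hF : ∀ γ ∈ gamma0GL M, F ∣[k] γ = F) :
    ∀ γ ∈ gamma0GL (r * M), (F ∣[k] heckeDiagMatrix r) ∣[k] γ = F ∣[k] heckeDiagMatrix r := by
  rintro _ ⟨g, hg, rfl⟩
  obtain ⟨e, he⟩ := mem_Gamma0_iff.mp hg
  push_cast at he
  let g' : SL(2, ℤ) := mkSL (g 0 0) ((r : ℤ) * g 0 1) ((M : ℤ) * e) (g 1 1)
    (by linear_combination det_SL g + g 0 1 * he)
  have hmul : heckeDiagMatrix r * Matrix.SpecialLinearGroup.mapGL ℝ g =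
      Matrix.SpecialLinearGroup.mapGL ℝ g' * heckeDiagMatrix r := by
    have heR := congrArg (Int.cast : ℤ → ℝ) he
    push_cast at heR
    ext i j
    fin_cases i <;> fin_cases j <;> simp [g', hr, Matrix.mul_apply, Fin.sum_univ_two, heR] <;> ring
  rw [← SlashAction.slash_mul, hmul, SlashAction.slash_mul,
    hF _ (mapGL_mem_gamma0GL ⟨e, by simp [g']⟩)]

/-- The degeneracy map `f ↦ f ∣ diag(r, 1)`. -/
def degen {M : ℕ} [NeZero M] (r : ℕ) [NeZero r] (f : CuspForm (Gamma0 M) k) :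
    CuspForm (Gamma0 (r * M)) k :=
  mkCuspForm (r * M) k (⇑f ∣[k] heckeDiagMatrix r) ((isCuspidalFun_coe f).slash_heckeDiag r)
    (slash_heckeDiag_invariant (NeZero.ne r) (slash_eq_coe f))

/-- The coefficients of `degen r f`. -/
theorem qCoeff_degen {M : ℕ} [NeZero M] (r : ℕ) [NeZero r] (f : CuspForm (Gamma0 M) k) (n : ℕ) :
    qCoeff ⇑(degen r f) n = if r ∣ n then (r : ℂ) ^ (k - 1) * qCoeff ⇑f (n / r) else 0 := by
  let U := CuspForm.heckeULin k (dvd_mul_right r M) (raise (r * M) (dvd_mul_left M r) f)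
  have hcoe : ⇑(U + degen r f) = heckeT k r ⇑f := rfl
  have h := qCoeff_add U (degen r f) n
  rw [hcoe, qCoeff_heckeT f (one_mem_strictPeriods_Gamma0 M) (NeZero.ne r) n,
    show qCoeff ⇑U n = qCoeff ⇑f (n * r) from ?_, coeffHeckeT_apply] at h
  · exact (add_left_cancel h).symm
  · simp only [U, CuspForm.coe_heckeULin_apply, coe_raise]
    rw [qCoeff_heckeU f (one_mem_strictPeriods_Gamma0 M) (NeZero.ne r) n]
    rfl

/-- Forms with the same coefficients are equal. -/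
theorem eq_of_qCoeff [NeZero N] {f g : CuspForm (Gamma0 N) k}
    (h : ∀ n, qCoeff ⇑f n = qCoeff ⇑g n) : f = g :=
  sub_eq_zero.mp (eq_zero_of_qCoeff _ fun n => by rw [qCoeff_sub, h, sub_self])

section Eigen

variable [NeZero N] {f : CuspForm (Gamma0 N) 2}

/-- The recursion of the coefficients of a normalised eigenform. -/
theorem qCoeff_prime_mul (hf : f.IsNormalizedEigenform) {p : ℕ} (hp : p.Prime) (n : ℕ) :
    qCoeff ⇑f p * qCoeff ⇑f n = qCoeff ⇑f (n * p) +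
      if ¬ p ∣ N ∧ p ∣ n then (p : ℂ) * qCoeff ⇑f (n / p) else 0 := by
  rcases n.eq_zero_or_pos with rfl | hn
  · simp [qCoeff_at_zero]
  obtain ⟨r, m, hm, rfl⟩ :
      ∃ r m, ¬ p ∣ m ∧ n = p ^ r * m :=
    Nat.exists_eq_pow_mul_and_not_dvd hn.ne' p hp.ne_one
  have hcop : ∀ i, (p ^ i).Coprime m := fun i =>
    ((Nat.Prime.coprime_iff_not_dvd hp).mpr hm).pow_left i
  rw [show p ^ r * m * p = p ^ (r + 1) * m by ring,
    hf.qCoeff_mul_of_coprime _ _ (hcop _), hf.qCoeff_mul_of_coprime _ _ (hcop _)]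
  cases r with
  | zero =>
    rw [if_neg (fun hc => hm (by simpa using hc.2)), pow_zero, hf.qCoeff_one, pow_one]
    ring
  | succ r =>
    have hdiv : p ^ (r + 1) * m / p = p ^ r * m := by
      rw [pow_succ, mul_right_comm, Nat.mul_div_cancel _ hp.pos]
    have hdvd : p ∣ p ^ (r + 1) * m := dvd_mul_of_dvd_left (dvd_pow_self _ (by omega)) _
    by_cases hN : p ∣ N
    · rw [if_neg (fun hc => hc.1 hN), hf.qCoeff_prime_pow_of_dvd p r hp hN]
      ring
    · rw [if_pos ⟨hN, hdvd⟩, hdiv, hf.qCoeff_prime_pow_of_not_dvd p r hp hN,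
        hf.qCoeff_mul_of_coprime _ _ (hcop _)]
      ring

/-- A normalised eigenform is an eigenvector of `U_q` with eigenvalue `a_q`. -/
theorem heckeULin_eq_smul (hf : f.IsNormalizedEigenform) {q : ℕ} (hq : q.Prime) (hqN : q ∣ N) :
    CuspForm.heckeULin 2 hqN f = qCoeff ⇑f q • f := by
  refine eq_of_qCoeff fun n => ?_
  rw [qCoeff_heckeULin hq hqN, qCoeff_smul, qCoeff_prime_mul hf hq, if_neg (fun h => h.1 hqN),
    add_zero]

/-- A normalised eigenform is an eigenvector of `T_ℓ` with eigenvalue `a_ℓ`. -/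
theorem heckeTLin_eq_smul (hf : f.IsNormalizedEigenform) {ℓ : ℕ} (hℓ : ℓ.Prime) (hℓN : ¬ ℓ ∣ N) :
    CuspForm.heckeTLin 2 hℓ hℓN f = qCoeff ⇑f ℓ • f := by
  refine eq_of_qCoeff fun n => ?_
  rw [qCoeff_heckeTLin hℓ hℓN, qCoeff_smul, qCoeff_prime_mul hf hℓ]
  simp [hℓN]

/-- `T_ℓ f = a_ℓ f` as functions. -/
theorem heckeT_coe_eq_smul (hf : f.IsNormalizedEigenform) {ℓ : ℕ} (hℓ : ℓ.Prime) (hℓN : ¬ ℓ ∣ N) :
    heckeT 2 ℓ ⇑f = qCoeff ⇑f ℓ • ⇑f :=
  congrArg (fun g : CuspForm (Gamma0 N) 2 => ⇑g) (heckeTLin_eq_smul hf hℓ hℓN)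

/-- `U_q f = a_q f` as functions. -/
theorem heckeU_coe_eq_smul (hf : f.IsNormalizedEigenform) {q : ℕ} (hq : q.Prime) (hqN : q ∣ N) :
    heckeU 2 q ⇑f = qCoeff ⇑f q • ⇑f :=
  congrArg (fun g : CuspForm (Gamma0 N) 2 => ⇑g) (heckeULin_eq_smul hf hq hqN)

/-- A nonzero form which is an eigenvector of the `T_ℓ`, `ℓ` in a set of primes not dividing the
level, yields a normalised eigenform with those eigenvalues. -/
theorem exists_eigenform_of_eigenvector {h : CuspForm (Gamma0 N) 2} (h0 : h ≠ 0) (P : ℕ → Prop)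
    (θ : ℕ → ℂ) (hP : ∀ ℓ, P ℓ → ℓ.Prime ∧ ¬ ℓ ∣ N)
    (hh : ∀ ℓ, P ℓ → heckeT 2 ℓ ⇑h = θ ℓ • ⇑h) :
    ∃ g : CuspForm (Gamma0 N) 2, g.IsNormalizedEigenform ∧ ∀ ℓ, P ℓ → qCoeff ⇑g ℓ = θ ℓ := by
  classical
  have := Fermat.Agent.HeckeLift.finiteDimensional_cuspForm (N := N) (k := 2)
  let W : Submodule ℂ (CuspForm (Gamma0 N) 2) :=
    ⨅ (ℓ : ℕ) (hℓ : P ℓ), Module.End.eigenspace (CuspForm.heckeTLin 2 (hP ℓ hℓ).1 (hP ℓ hℓ).2) (θ ℓ)
  have hmem : ∀ v, v ∈ W ↔ ∀ ℓ (hℓ : P ℓ),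
      CuspForm.heckeTLin 2 (hP ℓ hℓ).1 (hP ℓ hℓ).2 v = θ ℓ • v := fun v => by
    simp [W]
  have hW : W ≠ ⊥ := fun hb => h0 (by
    have : h ∈ W := (hmem h).mpr fun ℓ hℓ => DFunLike.coe_injective (hh ℓ hℓ)
    rwa [hb, Submodule.mem_bot] at this)
  let s : Set (Module.End ℂ (CuspForm (Gamma0 N) 2)) := CuspForm.heckeGenerators N 2 ∅
  obtain ⟨v, hvW, hv0, hv⟩ := Fermat.Agent.HeckeLift.exists_common_eigenvector s
    (fun t ht t' ht' => CuspForm.commute_of_mem_heckeGenerators ht ht') W hW (fun t ht w hw => by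
      rw [hmem] at hw ⊢
      intro ℓ hℓ
      have hc := LinearMap.congr_fun (CuspForm.commute_of_mem_heckeGenerators
        (CuspForm.heckeTLin_mem_heckeGenerators (hP ℓ hℓ).1 (hP ℓ hℓ).2
          (Set.notMem_empty ℓ)) ht).eq w
      simp only [Module.End.mul_apply] at hc
      rw [hc, hw ℓ hℓ, map_smul])
  have hTex : ∀ p (hp : p.Prime) (hpN : ¬ p ∣ N), ∃ μ : ℂ, CuspForm.heckeTLin 2 hp hpN v = μ • v :=
    fun p hp hpN =>
      hv _ (CuspForm.heckeTLin_mem_heckeGenerators hp hpN (Set.notMem_empty p))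
  have hUex : ∀ p (_ : p.Prime) (hpN : p ∣ N), ∃ μ : ℂ, CuspForm.heckeULin 2 hpN v = μ • v :=
    fun p hp hpN =>
      hv _ (CuspForm.heckeULin_mem_heckeGenerators hp hpN (Set.notMem_empty p))
  choose μT hμT using hTex
  choose μU hμU using hUex
  let μ : ℕ → ℂ := fun p =>
    if hp : p.Prime then (if hpN : p ∣ N then μU p hp hpN else μT p hp hpN) else 0
  obtain ⟨g, hg, hgp⟩ := Fermat.Agent.HeckeLift.exists_normalizedEigenform v hv0 μ
    (fun p hp hpN => by simpa [μ, hp, hpN] using hμT p hp hpN)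
    (fun p hp hpN => by simpa [μ, hp, hpN] using hμU p hp hpN)
  refine ⟨g, hg, fun ℓ hℓ => ?_⟩
  have e := (hmem v).mp hvW ℓ hℓ
  rw [hμT] at e
  rw [hgp ℓ (hP ℓ hℓ).1, ← smul_left_injective ℂ hv0 e]
  simp [μ, (hP ℓ hℓ).1, (hP ℓ hℓ).2]

end Eigen

end Fermat.Agent.Newforms
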