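import Fermat.Prelude.Def_CuspForm_Newforms
import Fermat.Agent.Newforms.Forms

/-!
# Newforms in the sense of `CuspForm.IsNewform`

* every eigenform's good eigensystem is that of a newform of some level `M ∣ N`;
* an eigenform of level `M` gives one at every multiple level;
* `NewformBadPrimeCoeff N`: for a newform, `a_q ^ 2 = 1` if `q ∥ N` and `a_q = 0` if `q² ∣ N`.
-/

set_option autoImplicit false

noncomputable section

open ModularFormClass UpperHalfPlane CongruenceSubgroup ModularForm CuspForm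
open scoped MatrixGroups ModularForm

namespace Fermat.Agent.Newforms

open Fermat.Agent.HeckeLift (qCoeff_smul qCoeff_sub qCoeff_at_zero)

/-- Every eigenform's good eigensystem occurs in a newform of level dividing `N`. -/
theorem exists_newform (N : ℕ) [NeZero N] (f : CuspForm (Gamma0 N) 2)
    (hf : f.IsNormalizedEigenform) :
    ∃ M : ℕ, M ∣ N ∧ 0 < M ∧ ∃ g : CuspForm (Gamma0 M) 2, g.IsNewform ∧
      ∀ ℓ : ℕ, ℓ.Prime → ¬ ℓ ∣ N → qCoeff ⇑g ℓ = qCoeff ⇑f ℓ := by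
  classical
  have hex : ∃ M, M ∣ N ∧ GoodEigensystemOccursAt f M :=
    ⟨N, dvd_rfl, GoodEigensystemOccursAt.refl hf⟩
  have hspec := Nat.find_spec hex
  set M := Nat.find hex with hM
  obtain ⟨hMN, g, hg, hgf⟩ := hspec
  have hMpos : 0 < M := Nat.pos_of_dvd_of_pos hMN (NeZero.pos N)
  refine ⟨M, hMN, hMpos, g, ⟨hg, fun M' hM' hne hocc => ?_⟩, hgf⟩
  obtain ⟨g', hg', hg'g⟩ := hocc
  have hlt : M' < M := lt_of_le_of_ne (Nat.le_of_dvd hMpos hM') hne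
  exact Nat.find_min hex hlt ⟨hM'.trans hMN, g', hg', fun ℓ hℓ hℓN => by
    rw [hg'g ℓ hℓ (fun h => hℓN (h.trans hMN)), hgf ℓ hℓ hℓN]⟩

/-- The roots of `X² - a X + r` as possible `U_r` eigenvalues; an oldform stabilisation. -/
theorem exists_stabilisation {M r : ℕ} [NeZero M] (hr : r.Prime) (hrM : ¬ r ∣ M)
    (f : CuspForm (Gamma0 M) 2) (hf : f.IsNormalizedEigenform) (α : ℂ)
    (hα : α ^ 2 - qCoeff ⇑f r * α + r = 0) :
    ∃ g : CuspForm (Gamma0 (r * M)) 2, g.IsNormalizedEigenform ∧ qCoeff ⇑g r = α ∧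
      ∀ p : ℕ, p.Prime → p ≠ r → qCoeff ⇑g p = qCoeff ⇑f p := by
  have : NeZero r := ⟨hr.ne_zero⟩
  set β : ℂ := qCoeff ⇑f r - α with hβ
  have hαβ : α * β = r := by rw [hβ]; linear_combination -hα
  let g : CuspForm (Gamma0 (r * M)) 2 :=
    raise (r * M) (dvd_mul_left M r) f - (β / r) • degen r f
  have hrC : (r : ℂ) ≠ 0 := by exact_mod_cast hr.ne_zero
  have hb : ∀ n, qCoeff ⇑g n =
      qCoeff ⇑f n - if r ∣ n then β * qCoeff ⇑f (n / r) else 0 := by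
    intro n
    rw [qCoeff_sub, qCoeff_smul, qCoeff_degen, coe_raise]
    split_ifs
    · rw [show (2 : ℤ) - 1 = 1 by norm_num, zpow_one]
      field_simp
    · rw [mul_zero]
  have hnd : ∀ n, ¬ r ∣ n → qCoeff ⇑g n = qCoeff ⇑f n := fun n hn => by
    rw [hb, if_neg hn, sub_zero]
  have hgr : qCoeff ⇑g r = α := by
    rw [hb, if_pos dvd_rfl, Nat.div_self hr.pos, hf.qCoeff_one, hβ]
    ring
  have hpow : ∀ (p : ℕ), p.Prime → p ≠ r → ∀ i, qCoeff ⇑g (p ^ i) = qCoeff ⇑f (p ^ i) :=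
    fun p hp hpr i => hnd _ fun h =>
      hpr ((Nat.prime_dvd_prime_iff_eq hr hp).mp (hr.dvd_of_dvd_pow h)).symm
  have hdvdN : ∀ p : ℕ, p.Prime → p ≠ r → (p ∣ r * M ↔ p ∣ M) := fun p hp hpr =>
    ⟨fun h => (hp.dvd_mul.mp h).resolve_left fun h' =>
      hpr ((Nat.prime_dvd_prime_iff_eq hp hr).mp h'),
      fun h => dvd_mul_of_dvd_right h r⟩
  refine ⟨g, ⟨?_, ?_, ?_, ?_⟩, hgr, fun p hp hpr => by simpa using hpow p hp hpr 1⟩
  · rw [hnd 1 hr.not_dvd_one, hf.qCoeff_one]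
  · intro m n hmn
    wlog hn : ¬ r ∣ n generalizing m n with H
    · have hm : ¬ r ∣ m := fun hm => hn fun hn' => hr.not_dvd_one (hmn ▸ Nat.dvd_gcd hm hn')
      rw [mul_comm m n, mul_comm (qCoeff ⇑g m)]
      exact H n m hmn.symm hm
    rw [hnd n hn]
    by_cases hm : r ∣ m
    · obtain ⟨s, rfl⟩ := hm
      have hs : s.Coprime n := hmn.coprime_mul_left
      rw [hb, hb, if_pos (dvd_mul_right r s), if_pos (dvd_mul_of_dvd_left (dvd_mul_right r s) n),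
        Nat.mul_div_cancel_left _ hr.pos, mul_assoc r s n, Nat.mul_div_cancel_left _ hr.pos,
        ← mul_assoc r s n, hf.qCoeff_mul_of_coprime _ _ hmn, hf.qCoeff_mul_of_coprime _ _ hs]
      ring
    · rw [hnd m hm, hnd _ fun h => (hr.dvd_mul.mp h).elim hm hn,
        hf.qCoeff_mul_of_coprime _ _ hmn]
  · intro p i hp hpN
    have hpr : p ≠ r := fun h => hpN (h ▸ dvd_mul_right r M)
    have h1 : qCoeff ⇑g p = qCoeff ⇑f p := by simpa using hpow p hp hpr 1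
    rw [hpow p hp hpr, hpow p hp hpr, hpow p hp hpr, h1,
      hf.qCoeff_prime_pow_of_not_dvd p i hp fun h => hpN ((hdvdN p hp hpr).mpr h)]
  · intro p i hp hpN
    rcases eq_or_ne p r with rfl | hpr
    · rw [hgr, hb, hb, if_pos (dvd_pow_self _ (by omega)), if_pos (dvd_pow_self _ (by omega)),
        pow_succ p (i + 1), Nat.mul_div_cancel _ hr.pos, pow_succ p i,
        Nat.mul_div_cancel _ hr.pos, ← pow_succ p i, ← pow_succ p (i + 1),
        hf.qCoeff_prime_pow_of_not_dvd p i hr hrM, hβ]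
      linear_combination qCoeff ⇑f (p ^ i) * hαβ
    · have h1 : qCoeff ⇑g p = qCoeff ⇑f p := by simpa using hpow p hp hpr 1
      rw [hpow p hp hpr, hpow p hp hpr, h1,
        hf.qCoeff_prime_pow_of_dvd p i hp ((hdvdN p hp hpr).mp hpN)]

/-- One step up in the level: all prime coefficients are kept, except possibly at the new prime. -/
theorem exists_eigenform_prime_mul {M r : ℕ} [NeZero M] (hr : r.Prime)
    (f : CuspForm (Gamma0 M) 2) (hf : f.IsNormalizedEigenform) :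
    ∃ g : CuspForm (Gamma0 (r * M)) 2, g.IsNormalizedEigenform ∧
      ∀ p : ℕ, p.Prime → p ≠ r → qCoeff ⇑g p = qCoeff ⇑f p := by
  have : NeZero r := ⟨hr.ne_zero⟩
  by_cases hrM : r ∣ M
  · have hiff : ∀ p : ℕ, p.Prime → (p ∣ r * M ↔ p ∣ M) := fun p hp =>
      ⟨fun h => (hp.dvd_mul.mp h).elim (fun h' => h'.trans hrM) id,
        fun h => dvd_mul_of_dvd_right h r⟩
    exact ⟨raise (r * M) (dvd_mul_left M r) f,
      ⟨hf.qCoeff_one, hf.qCoeff_mul_of_coprime,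
        fun p i hp h => hf.qCoeff_prime_pow_of_not_dvd p i hp fun h' => h ((hiff p hp).mpr h'),
        fun p i hp h => hf.qCoeff_prime_pow_of_dvd p i hp ((hiff p hp).mp h)⟩,
      fun p _ _ => rfl⟩
  · obtain ⟨s, hs⟩ := IsAlgClosed.exists_eq_mul_self (qCoeff ⇑f r ^ 2 - 4 * r)
    obtain ⟨g, hg, -, hgp⟩ := exists_stabilisation hr hrM f hf ((qCoeff ⇑f r + s) / 2)
      (by linear_combination (-1 / 4 : ℂ) * hs)
    exact ⟨g, hg, hgp⟩

/-- Raising the level to any multiple. -/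
theorem exists_eigenform_of_dvd {M N : ℕ} (hMN : M ∣ N) (hN : 0 < N)
    (f : CuspForm (Gamma0 M) 2) (hf : f.IsNormalizedEigenform) :
    ∃ g : CuspForm (Gamma0 N) 2, g.IsNormalizedEigenform ∧
      ∀ p : ℕ, p.Prime → ¬ p ∣ N / M → qCoeff ⇑g p = qCoeff ⇑f p := by
  obtain ⟨t, rfl⟩ := hMN
  have hM : 0 < M := Nat.pos_of_mul_pos_right hN
  rw [Nat.mul_div_cancel_left _ hM]
  induction t using Nat.strong_induction_on with
  | _ t ih =>
    rcases eq_or_ne t 1 with rfl | ht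
    · rw [mul_one]
      exact ⟨f, hf, fun _ _ _ => rfl⟩
    · obtain ⟨r, hr, s, rfl⟩ := Nat.exists_prime_and_dvd ht
      have hs : 0 < s := Nat.pos_of_mul_pos_left (Nat.pos_of_mul_pos_left hN)
      obtain ⟨g, hg, hgf⟩ := ih s (lt_mul_of_one_lt_left hs hr.one_lt) (Nat.mul_pos hM hs)
      have : NeZero (M * s) := ⟨(Nat.mul_pos hM hs).ne'⟩
      obtain ⟨g', hg', hg'g⟩ := exists_eigenform_prime_mul hr g hg
      rw [show M * (r * s) = r * (M * s) by ring]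
      exact ⟨g', hg', fun p hp hps => by
        rw [hg'g p hp fun h => hps (h ▸ dvd_mul_right r s),
          hgf p hp fun h => hps (dvd_mul_of_dvd_right h r)]⟩

/-- If `q² ∣ N` and the good eigensystem of an eigenform does not occur at level `N / q`,
then `a_q = 0`. -/
theorem qCoeff_eq_zero_or_occursAt {q M : ℕ} [NeZero M] (hq : q.Prime) (hqM : q ∣ M)
    (f : CuspForm (Gamma0 (q * M)) 2) (hf : f.IsNormalizedEigenform) :
    qCoeff ⇑f q = 0 ∨ GoodEigensystemOccursAt f M := by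
  have : NeZero q := ⟨hq.ne_zero⟩
  refine or_iff_not_imp_left.mpr fun ha => ?_
  have hU := heckeU_coe_eq_smul hf hq (dvd_mul_right q M)
  let F : CuspForm (Gamma0 M) 2 :=
    mkCuspForm M 2 (heckeU 2 q ⇑f)
      (isCuspidalFun_coe (CuspForm.heckeULin 2 (dvd_mul_right q M) f))
      (heckeU_slash_of_dvd 2 hq hqM (slash_eq_coe f))
  have hF0 : F ≠ 0 := by
    intro h
    have h0 : qCoeff ⇑f q • ⇑f = 0 := by
      rw [← hU]
      exact congrArg (fun g : CuspForm (Gamma0 M) 2 => ⇑g) h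
    exact hf.ne_zero (DFunLike.coe_injective ((smul_eq_zero.mp h0).resolve_left ha))
  obtain ⟨g, hg, hgf⟩ := exists_eigenform_of_eigenvector hF0
    (fun ℓ => ℓ.Prime ∧ ¬ ℓ ∣ q * M) (fun ℓ => qCoeff ⇑f ℓ)
    (fun ℓ hℓ => ⟨hℓ.1, fun h => hℓ.2 (dvd_mul_of_dvd_right h q)⟩)
    (fun ℓ hℓ => by
      show heckeT 2 ℓ (heckeU 2 q ⇑f) = qCoeff ⇑f ℓ • heckeU 2 q ⇑f
      rw [hU, heckeT_smul, heckeT_coe_eq_smul hf hℓ.1 hℓ.2, smul_comm])
  exact ⟨g, hg, fun ℓ hℓ hℓN => hgf ℓ ⟨hℓ, hℓN⟩⟩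

/-- If `q ∥ N`, either `a_q ^ 2 = 1` or the good eigensystem occurs at level `N / q`. -/
theorem qCoeff_sq_eq_one_or_occursAt {q M : ℕ} [NeZero M] (hq : q.Prime) (hqM : ¬ q ∣ M)
    (f : CuspForm (Gamma0 (q * M)) 2) (hf : f.IsNormalizedEigenform) :
    qCoeff ⇑f q ^ 2 = 1 ∨ GoodEigensystemOccursAt f M := by
  have : NeZero q := ⟨hq.ne_zero⟩
  obtain ⟨u, v, huv⟩ : IsCoprime (q : ℤ) (M : ℤ) :=
    Nat.isCoprime_iff_coprime.mpr ((Nat.Prime.coprime_iff_not_dvd hq).mpr hqM)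
  have h : (q : ℤ) * u - (M : ℤ) * (-v) = 1 := by linear_combination huv
  set W := alW q M (-v) u h with hW
  let f' : CuspForm (Gamma0 (q * M)) 2 :=
    mkCuspForm (q * M) 2 (⇑f ∣[(2 : ℤ)] W) ((isCuspidalFun_coe f).slash_alW h)
      (slash_alW_slash h 2 hq.ne_zero (slash_eq_coe f))
  have hf'W : ⇑f' ∣[(2 : ℤ)] W = ⇑f := slash_alW_alW h hq.ne_zero (slash_eq_coe f)
  have hf'eig : ∀ ℓ, ℓ.Prime → ¬ ℓ ∣ q * M → heckeT 2 ℓ ⇑f' = qCoeff ⇑f ℓ • ⇑f' := by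
    intro ℓ hℓ hℓN
    show heckeT 2 ℓ (⇑f ∣[(2 : ℤ)] W) = qCoeff ⇑f ℓ • (⇑f ∣[(2 : ℤ)] W)
    rw [heckeT_slash_alW h 2 hq.ne_zero hℓ hℓN (slash_eq_coe f), heckeT_coe_eq_smul hf hℓ hℓN,
      alW_slash_smul h]
  -- a nonzero trace gives the eigensystem at level `M`
  have key : ∀ φ : CuspForm (Gamma0 (q * M)) 2,
      (∀ ℓ, ℓ.Prime → ¬ ℓ ∣ q * M → heckeT 2 ℓ ⇑φ = qCoeff ⇑f ℓ • ⇑φ) →
      (∀ ℓ, ℓ.Prime → ¬ ℓ ∣ q * M →
        heckeT 2 ℓ (⇑φ ∣[(2 : ℤ)] W) = qCoeff ⇑f ℓ • (⇑φ ∣[(2 : ℤ)] W)) →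
      GoodEigensystemOccursAt f M ∨ ⇑φ + heckeU 2 q (⇑φ ∣[(2 : ℤ)] W) = 0 := by
    intro φ hφ hφW
    refine or_iff_not_imp_right.mpr fun hne => ?_
    let φW : CuspForm (Gamma0 (q * M)) 2 :=
      mkCuspForm (q * M) 2 (⇑φ ∣[(2 : ℤ)] W) ((isCuspidalFun_coe φ).slash_alW h)
        (slash_alW_slash h 2 hq.ne_zero (slash_eq_coe φ))
    let F : CuspForm (Gamma0 M) 2 :=
      mkCuspForm M 2 (⇑φ + heckeU 2 q (⇑φ ∣[(2 : ℤ)] W))
        ((isCuspidalFun_coe φ).add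
          (isCuspidalFun_coe (CuspForm.heckeULin 2 (dvd_mul_right q M) φW)))
        (trace_slash h hq hqM (slash_eq_coe φ))
    have hF0 : F ≠ 0 := fun hz =>
      hne (congrArg (fun g : CuspForm (Gamma0 M) 2 => ⇑g) hz)
    obtain ⟨g, hg, hgf⟩ := exists_eigenform_of_eigenvector hF0
      (fun ℓ => ℓ.Prime ∧ ¬ ℓ ∣ q * M) (fun ℓ => qCoeff ⇑f ℓ)
      (fun ℓ hℓ => ⟨hℓ.1, fun h => hℓ.2 (dvd_mul_of_dvd_right h q)⟩)
      (fun ℓ hℓ => by
        show heckeT 2 ℓ (⇑φ + heckeU 2 q (⇑φ ∣[(2 : ℤ)] W)) =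
          qCoeff ⇑f ℓ • (⇑φ + heckeU 2 q (⇑φ ∣[(2 : ℤ)] W))
        have hcomm := congrArg (fun g : CuspForm (Gamma0 (q * M)) 2 => ⇑g) (LinearMap.congr_fun
          (CuspForm.heckeTLin_heckeULin_comm 2 hℓ.1 hℓ.2 (dvd_mul_right q M)).eq φW)
        simp only [Module.End.mul_apply, CuspForm.coe_heckeTLin_apply,
          CuspForm.coe_heckeULin_apply, φW, coe_mkCuspForm] at hcomm
        rw [heckeT_add, hcomm, hφ ℓ hℓ.1 hℓ.2, hφW ℓ hℓ.1 hℓ.2, heckeU_smul, smul_add])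
    exact ⟨g, hg, fun ℓ hℓ hℓN => hgf ℓ ⟨hℓ, hℓN⟩⟩
  refine or_iff_not_imp_right.mpr fun hno => ?_
  have e1 := (key f (fun ℓ hℓ hℓN => heckeT_coe_eq_smul hf hℓ hℓN) hf'eig).resolve_left hno
  have e2 := (key f' hf'eig (fun ℓ hℓ hℓN => by
    rw [hf'W]; exact heckeT_coe_eq_smul hf hℓ hℓN)).resolve_left hno
  rw [hf'W, heckeU_coe_eq_smul hf hq (dvd_mul_right q M)] at e2
  have e3 : ⇑f ∣[(2 : ℤ)] W = -(qCoeff ⇑f q) • ⇑f := by
    rw [_root_.neg_smul]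
    exact eq_neg_of_add_eq_zero_left e2
  rw [e3, heckeU_smul, heckeU_coe_eq_smul hf hq (dvd_mul_right q M), smul_smul] at e1
  have hne : ∃ τ, f τ ≠ 0 := by
    by_contra hall
    exact hf.ne_zero (DFunLike.ext _ _ fun τ => by simpa using not_not.mp fun hτ => hall ⟨τ, hτ⟩)
  obtain ⟨τ, hτ⟩ := hne
  have e4 := congrFun e1 τ
  simp only [Pi.add_apply, Pi.smul_apply, smul_eq_mul, Pi.zero_apply] at e4
  have : (1 - qCoeff ⇑f q ^ 2) * f τ = 0 := by linear_combination e4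
  exact (sub_eq_zero.mp ((mul_eq_zero.mp this).resolve_right hτ)).symm

/-- For `q ∥ N` a form which is new at `q` has `a_q ^ 2 = 1`. -/
theorem qCoeff_sq_eq_one_of_isNewformAt {N q : ℕ} [NeZero N] (hq : q.Prime) (hq2 : ¬ q ^ 2 ∣ N)
    (f : CuspForm (Gamma0 N) 2) (hf : f.IsNewformAt q) : qCoeff ⇑f q ^ 2 = 1 := by
  obtain ⟨heig, ⟨M, rfl⟩, hno⟩ := hf
  have : NeZero M := ⟨fun h => NeZero.ne (q * M) (by rw [h, mul_zero])⟩
  rw [Nat.mul_div_cancel_left _ hq.pos] at hno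
  exact (qCoeff_sq_eq_one_or_occursAt hq
    (fun h => hq2 (by rw [sq]; exact mul_dvd_mul_left q h)) f heig).resolve_right hno

/-- For `q² ∣ N` a form which is new at `q` has `a_q = 0`. -/
theorem qCoeff_eq_zero_of_isNewformAt {N q : ℕ} [NeZero N] (hq : q.Prime) (hq2 : q ^ 2 ∣ N)
    (f : CuspForm (Gamma0 N) 2) (hf : f.IsNewformAt q) : qCoeff ⇑f q = 0 := by
  obtain ⟨heig, ⟨M, rfl⟩, hno⟩ := hf
  have : NeZero M := ⟨fun h => NeZero.ne (q * M) (by rw [h, mul_zero])⟩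
  rw [Nat.mul_div_cancel_left _ hq.pos] at hno
  exact (qCoeff_eq_zero_or_occursAt hq
    (Nat.dvd_of_mul_dvd_mul_left hq.pos (by rwa [← sq])) f heig).resolve_right hno

/-- Atkin-Lehner: the bad prime coefficients of a newform. -/
theorem newformBadPrimeCoeff (N : ℕ) [NeZero N] : NewformBadPrimeCoeff N :=
  fun f hf _ hq hqN =>
    ⟨fun h2 => qCoeff_sq_eq_one_of_isNewformAt hq h2 f (hf.isNewformAt hq hqN (NeZero.ne N)),
      fun h2 => qCoeff_eq_zero_of_isNewformAt hq h2 f (hf.isNewformAt hq hqN (NeZero.ne N))⟩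

/-- Raising the level, phrased on the primes not dividing the new level. -/
theorem goodEigensystem_of_dvd {M N : ℕ} (hMN : M ∣ N) (hN : 0 < N)
    (f : CuspForm (Gamma0 M) 2) (hf : f.IsNormalizedEigenform) :
    ∃ g : CuspForm (Gamma0 N) 2, g.IsNormalizedEigenform ∧
      ∀ p : ℕ, p.Prime → ¬ p ∣ N → qCoeff ⇑g p = qCoeff ⇑f p := by
  obtain ⟨g, hg, hgf⟩ := exists_eigenform_of_dvd hMN hN f hf
  exact ⟨g, hg, fun p hp hpN => hgf p hp fun h => hpN (h.trans (Nat.div_dvd_of_dvd hMN))⟩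

end Fermat.Agent.Newforms
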