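import Fermat.Agent.Newforms.Forms
import Mathlib.RingTheory.RootsOfUnity.Complex

/-!
# The main lemma of Atkin-Lehner

If the coefficients `a_n`, `n` prime to `N`, of a weight two form of level `N` vanish, the form is
a sum over `p ∣ N` of `g_p(pτ)` with `g_p` of level `N / p`. Proof after D. Carlton: with
`F(τ) = f(τ / N)`, sieving by the translations `T^{N/p}` commutes, modulo `Γ(N)`, with the
averaging operators at the other primes.
-/

set_option autoImplicit false

noncomputable section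

open Matrix.SpecialLinearGroup UpperHalfPlane ModularForm ModularFormClass
open scoped MatrixGroups ModularForm Real

namespace Fermat.Agent.Newforms.Sieve

variable (N : ℕ)

/-- Reduction modulo `N`. -/
abbrev red : SL(2, ℤ) →* SL(2, ZMod N) :=
  Matrix.SpecialLinearGroup.map (Int.castRingHom (ZMod N))

/-- Invariance under `Γ(N)`. -/
def GammaInv (F : ℍ → ℂ) : Prop :=
  ∀ g : SL(2, ℤ), red N g = 1 → F ∣[(2 : ℤ)] mapGL ℝ g = F

/-- Invariance under `Γ⁰(M)`. -/
def UpperInv (M : ℕ) (F : ℍ → ℂ) : Prop :=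
  ∀ g : SL(2, ℤ), (M : ℤ) ∣ g 0 1 → F ∣[(2 : ℤ)] mapGL ℝ g = F

variable {N}

theorem GammaInv.slash_eq {F : ℍ → ℂ} (hF : GammaInv N F) {x y : SL(2, ℤ)}
    (h : red N x = red N y) : F ∣[(2 : ℤ)] mapGL ℝ x = F ∣[(2 : ℤ)] mapGL ℝ y := by
  conv_lhs => rw [show x = x * y⁻¹ * y by group, map_mul, SlashAction.slash_mul]
  rw [hF (x * y⁻¹) (by rw [map_mul, map_inv, h, mul_inv_cancel])]

theorem UpperInv.gammaInv {F : ℍ → ℂ} (hF : UpperInv N F) : GammaInv N F := fun g hg => by
  refine hF g ((ZMod.intCast_zmod_eq_zero_iff_dvd _ _).mp ?_)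
  have := congrArg (fun u : SL(2, ZMod N) => u 0 1) hg
  simpa using this

theorem smul_slash_mapGL (c : ℂ) (F : ℍ → ℂ) (g : SL(2, ℤ)) :
    (c • F) ∣[(2 : ℤ)] mapGL ℝ g = c • (F ∣[(2 : ℤ)] mapGL ℝ g) := by
  rw [ModularForm.smul_slash, UpperHalfPlane.σ, if_pos (det_mapGL_pos g),
    ContinuousAlgEquiv.refl_apply]

theorem sub_slash_mapGL (F G : ℍ → ℂ) (g : SL(2, ℤ)) :
    (F - G) ∣[(2 : ℤ)] mapGL ℝ g = F ∣[(2 : ℤ)] mapGL ℝ g - G ∣[(2 : ℤ)] mapGL ℝ g := by
  rw [sub_eq_add_neg, SlashAction.add_slash, SlashAction.neg_slash, ← sub_eq_add_neg]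

/-- Averaging over a finite family. -/
def avg {ι : Type*} [Fintype ι] (R : ι → SL(2, ℤ)) (F : ℍ → ℂ) : ℍ → ℂ :=
  (Fintype.card ι : ℂ)⁻¹ • ∑ x, F ∣[(2 : ℤ)] mapGL ℝ (R x)

section avg

variable {ι κ : Type*} [Fintype ι] [Fintype κ] {F : ℍ → ℂ}

theorem avg_slash (R : ι → SL(2, ℤ)) (g : SL(2, ℤ)) :
    avg R F ∣[(2 : ℤ)] mapGL ℝ g = avg (fun x => R x * g) F := by
  simp only [avg, smul_slash_mapGL, SlashAction.sum_slash, map_mul, SlashAction.slash_mul]

theorem avg_sub (R : ι → SL(2, ℤ)) (F G : ℍ → ℂ) : avg R (F - G) = avg R F - avg R G := by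
  simp only [avg, sub_slash_mapGL, Finset.sum_sub_distrib, smul_sub]

theorem avg_congr (hF : GammaInv N F) {R S : ι → SL(2, ℤ)} (h : ∀ x, red N (R x) = red N (S x)) :
    avg R F = avg S F := by
  simp only [avg, fun x => hF.slash_eq (h x)]

/-- An invariant function is its own average. -/
theorem avg_eq_self [Nonempty ι] (R : ι → SL(2, ℤ)) (h : ∀ x, F ∣[(2 : ℤ)] mapGL ℝ (R x) = F) :
    avg R F = F := by
  have : (Fintype.card ι : ℂ) ≠ 0 := by exact_mod_cast Fintype.card_ne_zero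
  simp only [avg, h, Finset.sum_const, Finset.card_univ, ← Nat.cast_smul_eq_nsmul ℂ, smul_smul,
    inv_mul_cancel₀ this, one_smul]

/-- Averaging preserves invariance. -/
theorem GammaInv.avg (hF : GammaInv N F) (R : ι → SL(2, ℤ)) : GammaInv N (avg R F) := fun g hg => by
  rw [avg_slash]
  exact avg_congr hF fun x => by rw [map_mul, hg, mul_one]

/-- Invariance is closed under differences. -/
theorem GammaInv.sub {G : ℍ → ℂ} (hF : GammaInv N F) (hG : GammaInv N G) : GammaInv N (F - G) :=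
  fun g hg => by rw [sub_slash_mapGL, hF g hg, hG g hg]

theorem avg_comm (hF : GammaInv N F) (R : ι → SL(2, ℤ)) (S : κ → SL(2, ℤ))
    (h : ∀ x y, Commute (red N (R x)) (red N (S y))) : avg R (avg S F) = avg S (avg R F) := by
  simp only [avg, smul_slash_mapGL, SlashAction.sum_slash, ← SlashAction.slash_mul, ← map_mul,
    ← Finset.smul_sum]
  rw [Finset.sum_comm, smul_comm]
  refine congrArg _ (congrArg _ (Finset.sum_congr rfl fun y _ => Finset.sum_congr rfl fun x _ =>
    hF.slash_eq ?_))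
  rw [map_mul, map_mul]
  exact (h x y).symm.eq

theorem isCuspidalFun_avg (hF : IsCuspidalFun 2 F) (R : ι → SL(2, ℤ)) :
    IsCuspidalFun 2 (avg R F) := by
  classical
  have hsum : IsCuspidalFun 2 (∑ x, F ∣[(2 : ℤ)] mapGL ℝ (R x)) := by
    refine Finset.sum_induction _ _ (fun _ _ => IsCuspidalFun.add)
      ⟨mdifferentiable_const, fun c _ g _ => ?_⟩ fun x _ => hF.slash_mapGL (R x)
    rw [SlashAction.zero_slash]
    exact Filter.zero_zeroAtFilter _
  refine ⟨hsum.1.const_smul _, fun c hc g hg => ?_⟩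
  rw [avg, ModularForm.smul_slash]
  exact (hsum.2 c hc g hg).smul _

end avg

theorem isCuspidalFun_sub {F G : ℍ → ℂ} (hF : IsCuspidalFun 2 F) (hG : IsCuspidalFun 2 G) :
    IsCuspidalFun 2 (F - G) := by
  refine ⟨hF.1.sub hG.1, fun c hc g hg => ?_⟩
  have h1 : (F - G) ∣[(2 : ℤ)] g = F ∣[(2 : ℤ)] g - G ∣[(2 : ℤ)] g := by
    rw [sub_eq_add_neg, SlashAction.add_slash, SlashAction.neg_slash, ← sub_eq_add_neg]
  rw [h1]
  show Filter.Tendsto _ _ _
  simpa [Pi.sub_def] using Filter.Tendsto.sub (hF.2 c hc g hg) (hG.2 c hc g hg)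

/-- `(1, a; 0, 1)`. -/
def upper (a : ℤ) : SL(2, ℤ) := mkSL 1 a 0 1 (by ring)

/-- `(1, 0; c, 1)`. -/
def lower (c : ℤ) : SL(2, ℤ) := mkSL 1 0 c 1 (by ring)

theorem commute_upper (a b : ℤ) : Commute (red N (upper a)) (red N (upper b)) := by
  refine Matrix.SpecialLinearGroup.ext _ _ fun i j => ?_
  fin_cases i <;> fin_cases j <;>
    simp [upper, Matrix.mul_apply, Fin.sum_univ_two, Matrix.SpecialLinearGroup.map_apply_coe]
  ring

theorem commute_upper_lower {a c : ℤ} (h : (N : ℤ) ∣ a * c) :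
    Commute (red N (upper a)) (red N (lower c)) := by
  have h0 : ((a : ℤ) : ZMod N) * ((c : ℤ) : ZMod N) = 0 := by
    rw [← Int.cast_mul, ZMod.intCast_zmod_eq_zero_iff_dvd]
    exact h
  refine Matrix.SpecialLinearGroup.ext _ _ fun i j => ?_
  fin_cases i <;> fin_cases j <;>
    simp [upper, lower, Matrix.mul_apply, Fin.sum_univ_two,
      Matrix.SpecialLinearGroup.map_apply_coe, h0, mul_comm (c : ZMod N)]

theorem commute_upper_el {a i j : ℤ} {p : ℕ} (h : (N : ℤ) ∣ a * (N / p : ℕ)) :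
    Commute (red N (upper a)) (red N (upper (i * (N / p : ℕ)) * lower (j * (N / p : ℕ)))) := by
  rw [map_mul]
  refine (commute_upper _ _).mul_right (commute_upper_lower ?_)
  rw [show a * (j * (N / p : ℕ)) = j * (a * (N / p : ℕ)) by ring]
  exact dvd_mul_of_dvd_right h j

/-- The sieving family at `p`: the translations by multiples of `N / p`. -/
def piFam (N p : ℕ) (j : ZMod p) : SL(2, ℤ) := upper ((j.val : ℤ) * (N / p : ℕ))

/-- Sieve out, prime by prime, the coefficients of index divisible by a prime in the list. -/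
def sieve (N : ℕ) : List ℕ → (ℍ → ℂ) → (ℍ → ℂ)
  | [], F => F
  | p :: l, F =>
    if h : p = 0 then sieve N l F else
      haveI : NeZero p := ⟨h⟩
      sieve N l F - avg (piFam N p) (sieve N l F)

/-- Sieving preserves invariance. -/
theorem GammaInv.sieve {F : ℍ → ℂ} (hF : GammaInv N F) :
    ∀ l : List ℕ, GammaInv N (sieve N l F)
  | [] => hF
  | p :: l => by
    rw [Sieve.sieve]
    split_ifs
    · exact GammaInv.sieve hF l
    · rename_i h
      have : NeZero p := ⟨h⟩
      exact (GammaInv.sieve hF l).sub ((GammaInv.sieve hF l).avg _)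

theorem sieve_sub (l : List ℕ) (F G : ℍ → ℂ) :
    sieve N l (F - G) = sieve N l F - sieve N l G := by
  induction l with
  | nil => rfl
  | cons p l ih =>
    rw [sieve, sieve, sieve]
    split_ifs with hp
    · exact ih
    · have : NeZero p := ⟨hp⟩
      rw [ih, avg_sub]
      abel

theorem sieve_avg {ι : Type*} [Fintype ι] (R : ι → SL(2, ℤ)) {F : ℍ → ℂ} (hF : GammaInv N F)
    (l : List ℕ)
    (h : ∀ q ∈ l, ∀ (x : ι) (j : ZMod q), Commute (red N (piFam N q j)) (red N (R x))) :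
    sieve N l (avg R F) = avg R (sieve N l F) := by
  induction l with
  | nil => rfl
  | cons p l ih =>
    rw [sieve, sieve]
    split_ifs with hp
    · exact ih fun q hq => h q (List.mem_cons_of_mem _ hq)
    · have : NeZero p := ⟨hp⟩
      rw [ih fun q hq => h q (List.mem_cons_of_mem _ hq), avg_sub,
        avg_comm (hF.sieve l) (piFam N p) R fun j x => h p List.mem_cons_self x j]

theorem dvd_div_mul_div {p q : ℕ} (hp : p.Prime) (hq : q.Prime) (hpq : p ≠ q) (hpN : p ∣ N)
    (hqN : q ∣ N) : (N : ℤ) ∣ ((N / q : ℕ) : ℤ) * ((N / p : ℕ) : ℤ) := by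
  obtain ⟨t, rfl⟩ := ((Nat.coprime_primes hp hq).mpr hpq).mul_dvd_of_dvd_of_dvd hpN hqN
  rw [show p * q * t / q = p * t by
      rw [show p * q * t = q * (p * t) by ring, Nat.mul_div_cancel_left _ hq.pos],
    show p * q * t / p = q * t by rw [mul_assoc, Nat.mul_div_cancel_left _ hp.pos]]
  exact ⟨t, by push_cast; ring⟩

theorem commute_piFam {p q : ℕ} (hp : p.Prime) (hq : q.Prime) (hpq : p ≠ q) (hpN : p ∣ N)
    (hqN : q ∣ N) (i j : ℤ) (x : ZMod q) :
    Commute (red N (piFam N q x))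
      (red N (upper (i * (N / p : ℕ)) * lower (j * (N / p : ℕ)))) := by
  refine commute_upper_el ?_
  rw [mul_assoc]
  exact dvd_mul_of_dvd_right (dvd_div_mul_div hp hq hpq hpN hqN) _

/-- `F` is invariant under translation by `N / p` once it is fixed by the sieve average. -/
theorem slash_upper_of_avg {p : ℕ} [NeZero p] (hpN : p ∣ N) {G : ℍ → ℂ} (hG : GammaInv N G)
    (h : avg (piFam N p) G = G) (i : ℤ) :
    G ∣[(2 : ℤ)] mapGL ℝ (upper (i * (N / p : ℕ))) = G := by
  conv_lhs => rw [← h, avg_slash]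
  conv_rhs => rw [← h]
  calc avg (fun x => piFam N p x * upper (i * (N / p : ℕ))) G
      = avg (fun x => piFam N p (x + (i : ZMod p))) G := avg_congr hG fun x => by
        obtain ⟨e, he⟩ : (p : ℤ) ∣ (x.val : ℤ) + i - ((x + (i : ZMod p)).val : ℤ) := by
          rw [← ZMod.intCast_zmod_eq_zero_iff_dvd]
          push_cast
          rw [ZMod.natCast_zmod_val, ZMod.natCast_zmod_val, sub_self]
        have hmulN : ((p : ℤ) * (N / p : ℕ) : ℤ) = N := by
          rw [← Nat.cast_mul, Nat.mul_div_cancel' hpN]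
        have hz : ((N : ℤ) : ZMod N) = 0 := by simp
        have key : (((x.val : ℤ) * (N / p : ℕ) + i * (N / p : ℕ) : ℤ) : ZMod N) =
            (((((x + (i : ZMod p)).val : ℕ) : ℤ) * (N / p : ℕ) : ℤ) : ZMod N) := by
          rw [show (x.val : ℤ) * (N / p : ℕ) + i * (N / p : ℕ) =
            ((x + (i : ZMod p)).val : ℤ) * (N / p : ℕ) + e * N by
              rw [← hmulN]; linear_combination ((N / p : ℕ) : ℤ) * he]
          rw [Int.cast_add, Int.cast_mul e, hz, mul_zero, add_zero]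
        have hup : piFam N p x * upper (i * (N / p : ℕ)) =
            upper ((x.val : ℤ) * (N / p : ℕ) + i * (N / p : ℕ)) := by
          ext a b
          fin_cases a <;> fin_cases b <;>
            simp [piFam, upper, Matrix.mul_apply, Fin.sum_univ_two, add_comm]
        rw [hup]
        refine Matrix.SpecialLinearGroup.ext _ _ fun a b => ?_
        fin_cases a <;> fin_cases b <;>
          simp [piFam, upper, -ZMod.natCast_val]
        simpa [-ZMod.natCast_val] using key
    _ = avg (piFam N p) G := by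
        simp only [avg]
        congr 1
        exact Equiv.sum_comp (Equiv.addRight (i : ZMod p))
          (fun x => G ∣[(2 : ℤ)] mapGL ℝ (piFam N p x))

theorem mul_inv_apply01 (g r : SL(2, ℤ)) :
    (g * r⁻¹) 0 1 = g 0 0 * -r 0 1 + g 0 1 * r 0 0 := by
  rw [Matrix.SpecialLinearGroup.coe_mul, Matrix.SpecialLinearGroup.coe_inv]
  simp [Matrix.adjugate_fin_two, Matrix.mul_apply, Fin.sum_univ_two]

/-- An average over coset representatives of `Γ⁰(N)` in `Γ⁰(m)` has level `Γ⁰(m)`. -/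
theorem upperInv_avg {ι : Type*} [Fintype ι] {m : ℕ} {F : ℍ → ℂ} (hF : UpperInv N F)
    (R : ι → SL(2, ℤ))
    (hex : ∀ g : SL(2, ℤ), (m : ℤ) ∣ g 0 1 → ∀ x,
      ∃ y, ∃ γ : SL(2, ℤ), (N : ℤ) ∣ γ 0 1 ∧ R x * g = γ * R y)
    (huniq : ∀ x y, ∀ e₀ : SL(2, ℤ), (N : ℤ) ∣ e₀ 0 1 → R x = e₀ * R y → x = y) :
    UpperInv m (avg R F) := by
  intro g hg
  choose s γ hγ hmul using hex g hg
  have hinj : Function.Injective s := by
    intro x x' h
    refine huniq x x' (γ x * (γ x')⁻¹) ?_ ?_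
    · rw [mul_inv_apply01]
      exact dvd_add (dvd_mul_of_dvd_right (dvd_neg.mpr (hγ x')) _) (Dvd.dvd.mul_right (hγ x) _)
    · have h1 := hmul x
      have h2 : R (s x) = (γ x')⁻¹ * (R x' * g) := by rw [hmul x', h, inv_mul_cancel_left]
      rw [h2, ← mul_assoc, ← mul_assoc] at h1
      exact mul_right_cancel h1
  simp only [avg, smul_slash_mapGL, SlashAction.sum_slash]
  congr 1
  calc ∑ x, (F ∣[(2 : ℤ)] mapGL ℝ (R x)) ∣[(2 : ℤ)] mapGL ℝ g
      = ∑ x, F ∣[(2 : ℤ)] mapGL ℝ (R (s x)) := by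
        refine Finset.sum_congr rfl fun x _ => ?_
        rw [← SlashAction.slash_mul, ← map_mul, hmul x, map_mul, SlashAction.slash_mul,
          hF _ (hγ x)]
    _ = ∑ y, F ∣[(2 : ℤ)] mapGL ℝ (R y) :=
        (Finite.injective_iff_bijective.mp hinj).sum_comp fun y => F ∣[(2 : ℤ)] mapGL ℝ (R y)

/-- The averaging operator of the old part at `p`, with its properties. -/
theorem exists_old_average {p m : ℕ} (hp : p.Prime) (hm00 : m ≠ 0) (hN : N = p * m)
    {F : ℍ → ℂ} (hF : UpperInv N F) :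
    ∃ (ι : Type) (_ : Fintype ι) (_ : Nonempty ι) (R : ι → SL(2, ℤ)),
      UpperInv m (avg R F) ∧
      ∀ x, ∃ i j : ℤ, R x = upper (i * (m : ℤ)) * lower (j * (m : ℤ)) := by
  have : Fact p.Prime := ⟨hp⟩
  have hNZ : (N : ℤ) = (p : ℤ) * (m : ℤ) := by rw [hN]; push_cast; ring
  have hm' : (m : ℤ) ≠ 0 := by exact_mod_cast hm00
  have hp' : ∀ {z : ℤ}, (N : ℤ) ∣ z → ((z : ℤ) : ZMod p) = 0 := fun hz =>
    (ZMod.intCast_zmod_eq_zero_iff_dvd _ _).mpr (dvd_trans ⟨(m : ℤ), hNZ⟩ hz)
  have hdvd : ∀ {z : ℤ}, (m : ℤ) ∣ z → ∀ {a : ℤ}, ((a : ℤ) : ZMod p) ≠ 0 →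
      ∃ j : ZMod p, (N : ℤ) ∣ z - (j.val : ℤ) * (m : ℤ) * a := by
    rintro _ ⟨t, rfl⟩ a ha
    refine ⟨(t : ZMod p) / (a : ZMod p), ?_⟩
    rw [hNZ, show (m : ℤ) * t - (((t : ZMod p) / (a : ZMod p)).val : ℤ) * m * a =
      m * (t - (((t : ZMod p) / (a : ZMod p)).val : ℤ) * a) by ring, mul_comm (p : ℤ) m]
    refine mul_dvd_mul_left _ ((ZMod.intCast_zmod_eq_zero_iff_dvd _ _).mp ?_)
    push_cast
    rw [ZMod.natCast_zmod_val, div_mul_cancel₀ _ ha, sub_self]
  have hunit : ∀ g : SL(2, ℤ), ((g 0 1 : ℤ) : ZMod p) = 0 → ((g 0 0 : ℤ) : ZMod p) ≠ 0 :=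
    fun g h01 h00 => by
      have := congrArg (fun z : ℤ => (z : ZMod p)) (det_SL g)
      push_cast at this
      rw [h00, h01] at this
      simp at this
  by_cases hpm : p ∣ m
  · refine ⟨ZMod p, inferInstance, inferInstance, fun j => upper ((j.val : ℤ) * m), ?_,
      fun j => ⟨j.val, 0, by
        ext a b; fin_cases a <;> fin_cases b <;> simp [upper, lower, Matrix.mul_apply]⟩⟩
    refine upperInv_avg hF _ (fun g hg j => ?_) fun j k e₀ he₀ e => ?_
    · set g' := upper ((j.val : ℤ) * m) * g with hg'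
      have h01 : (m : ℤ) ∣ g' 0 1 := by
        have e : g' 0 1 = g 0 1 + (j.val : ℤ) * m * g 1 1 := by
          simp [hg', upper, Matrix.mul_apply, Fin.sum_univ_two, -ZMod.natCast_val]
        rw [e]
        exact dvd_add hg (Dvd.dvd.mul_right (dvd_mul_left _ _) _)
      obtain ⟨y, hy⟩ := hdvd h01 (hunit g' ((ZMod.intCast_zmod_eq_zero_iff_dvd _ _).mpr
        ((Int.natCast_dvd_natCast.mpr hpm).trans h01)))
      refine ⟨y, g' * (upper ((y.val : ℤ) * m))⁻¹, ?_, by group⟩
      rw [mul_inv_apply01]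
      simpa [upper, -ZMod.natCast_val, sub_eq_add_neg, add_comm, mul_comm, mul_left_comm,
        mul_assoc] using hy
    · have e00 := congrArg (fun u : SL(2, ℤ) => u 0 0) e
      have e01 := congrArg (fun u : SL(2, ℤ) => u 0 1) e
      simp [upper, Matrix.mul_apply, Fin.sum_univ_two, -ZMod.natCast_val] at e01 e00
      obtain ⟨t, ht⟩ := he₀
      rw [← e00, one_mul, ht, hNZ] at e01
      have : (j.val : ℤ) = (k.val : ℤ) + p * t :=
        mul_right_cancel₀ hm' (by linear_combination e01)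
      have := congrArg (fun z : ℤ => (z : ZMod p)) this
      simpa using this
  · have hmp : ((m : ℤ) : ZMod p) ≠ 0 := by
      rwa [Ne, ZMod.intCast_zmod_eq_zero_iff_dvd, Int.natCast_dvd_natCast]
    set j₀ : ZMod p := -1 / ((m : ℤ) : ZMod p) ^ 2 with hj₀
    have hj₀m : j₀ * ((m : ℤ) : ZMod p) ^ 2 = -1 := by
      rw [hj₀, div_mul_cancel₀]
      exact pow_ne_zero 2 hmp
    let R : Option (ZMod p) → SL(2, ℤ) := fun x => x.elim
      (upper ((j₀.val : ℤ) * m) * lower (1 * m)) (fun j => upper ((j.val : ℤ) * m))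
    have hR01 : ∀ x, (R x) 0 1 = (((Option.elim x j₀ id).val : ℕ) : ℤ) * m := by
      rintro (_ | j) <;>
        simp [R, upper, lower, Matrix.mul_apply, Fin.sum_univ_two, -ZMod.natCast_val]
    have hR00 : ((R none) 0 0 : ℤ) = 1 + (j₀.val : ℤ) * m * m := by
      simp [R, upper, lower, Matrix.mul_apply, Fin.sum_univ_two, -ZMod.natCast_val]
    have hR00' : ∀ j, ((R (some j)) 0 0 : ℤ) = 1 := fun j => by simp [R, upper]
    have hjm : (((R none) 0 0 : ℤ) : ZMod p) = 0 := by
      rw [hR00]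
      push_cast
      rw [ZMod.natCast_zmod_val]
      push_cast at hj₀m
      linear_combination hj₀m
    refine ⟨Option (ZMod p), inferInstance, inferInstance, R,
      upperInv_avg hF R (fun g hg x => ?_) (fun x x' e₀ he₀ e => ?_), fun x => ?_⟩
    · set g' := R x * g with hg'
      have h01 : (m : ℤ) ∣ g' 0 1 := by
        rw [hg', Matrix.SpecialLinearGroup.coe_mul, Matrix.mul_apply, Fin.sum_univ_two, hR01 x]
        exact dvd_add (dvd_mul_of_dvd_right hg _) (Dvd.dvd.mul_right (dvd_mul_left _ _) _)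
      by_cases ha : ((g' 0 0 : ℤ) : ZMod p) = 0
      · refine ⟨none, g' * (R none)⁻¹, ?_, by group⟩
        rw [mul_inv_apply01, hR01, hNZ]
        refine (Nat.isCoprime_iff_coprime.mpr ((Nat.Prime.coprime_iff_not_dvd hp).mpr hpm)).mul_dvd
          ?_ (dvd_add (dvd_mul_of_dvd_right (dvd_neg.mpr (dvd_mul_left _ _)) _)
            (Dvd.dvd.mul_right h01 _))
        rw [← ZMod.intCast_zmod_eq_zero_iff_dvd]
        push_cast
        rw [ha, hjm, zero_mul, mul_zero, add_zero]
      · obtain ⟨y, hy⟩ := hdvd h01 ha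
        refine ⟨some y, g' * (R (some y))⁻¹, ?_, by group⟩
        rw [mul_inv_apply01, hR01, hR00']
        simpa [-ZMod.natCast_val, sub_eq_add_neg, add_comm, mul_comm, mul_left_comm, mul_assoc]
          using hy
    · have he₀01 : ((e₀ 0 1 : ℤ) : ZMod p) = 0 := hp' he₀
      have he₀00 := hunit e₀ he₀01
      have e00 := congrArg (fun u : SL(2, ℤ) => ((u 0 0 : ℤ) : ZMod p)) e
      have e01 := congrArg (fun u : SL(2, ℤ) => ((u 0 1 : ℤ) : ZMod p)) e
      simp only [Matrix.SpecialLinearGroup.coe_mul, Matrix.mul_apply, Fin.sum_univ_two,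
        Int.cast_add, Int.cast_mul, he₀01, zero_mul, add_zero, hR01, Int.cast_natCast,
        ZMod.natCast_zmod_val] at e00 e01
      rcases x with _ | i <;> rcases x' with _ | i'
      · rfl
      · rw [hjm, hR00'] at e00
        push_cast at e00
        rw [mul_one] at e00
        exact absurd e00.symm he₀00
      · rw [hjm, hR00'] at e00
        simp at e00
      · rw [hR00', hR00'] at e00
        push_cast at e00
        rw [mul_one] at e00
        rw [← e00, one_mul] at e01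
        exact congrArg some (mul_right_cancel₀ (by simpa using hmp) (by simpa using e01))
    · rcases x with _ | j
      · exact ⟨j₀.val, 1, rfl⟩
      · exact ⟨j.val, 0, by
          ext a b; fin_cases a <;> fin_cases b <;> simp [R, upper, lower, Matrix.mul_apply]⟩

theorem upperInv_of_dvd {M : ℕ} (hMN : M ∣ N) {F : ℍ → ℂ} (hF : UpperInv M F) : UpperInv N F :=
  fun g hg => hF g ((Int.natCast_dvd_natCast.mpr hMN).trans hg)

/-- A form killed by the sieve is a sum of forms of lower level. -/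
theorem exists_decomposition [NeZero N] (l : List ℕ) (hnd : l.Nodup)
    (hl : ∀ p ∈ l, p.Prime ∧ p ∣ N) :
    ∀ F : ℍ → ℂ, IsCuspidalFun 2 F → UpperInv N F → sieve N l F = 0 →
      ∃ G : ℕ → ℍ → ℂ, (∀ p ∈ l, IsCuspidalFun 2 (G p) ∧ UpperInv (N / p) (G p)) ∧
        F = (l.map G).sum := by
  induction l with
  | nil => intro F _ _ h; exact ⟨fun _ => 0, by simp, by simpa [sieve] using h⟩
  | cons p l ih =>
    intro F hc hF h
    obtain ⟨hp, hpN⟩ := hl p List.mem_cons_self
    obtain ⟨hpl, hnd'⟩ := List.nodup_cons.mp hnd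
    have : NeZero p := ⟨hp.ne_zero⟩
    have hG : GammaInv N (sieve N l F) := hF.gammaInv.sieve l
    rw [sieve, dif_neg hp.ne_zero] at h
    have hfix : avg (piFam N p) (sieve N l F) = sieve N l F := (sub_eq_zero.mp h).symm
    obtain ⟨ι, hι, hne, R, hA, hR⟩ :=
      exists_old_average (N := N) hp
        (Nat.div_pos (Nat.le_of_dvd (NeZero.pos N) hpN) hp.pos).ne'
          (Nat.mul_div_cancel' hpN).symm hF
    have hRfix : ∀ x, sieve N l F ∣[(2 : ℤ)] mapGL ℝ (R x) = sieve N l F := by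
      intro x
      obtain ⟨i, j, hij⟩ := hR x
      rw [hij, map_mul, SlashAction.slash_mul, slash_upper_of_avg hpN hG hfix i]
      let S : Unit → SL(2, ℤ) := fun _ => upper ((0 : ℤ) * (N / p : ℕ)) * lower (j * (N / p : ℕ))
      have h1 : avg S F = F := avg_eq_self S fun _ => hF _ (by
        simp [S, upper, lower, Matrix.mul_apply, Fin.sum_univ_two])
      have h2 := sieve_avg S hF.gammaInv l fun q hq _ k =>
        commute_piFam hp (hl q (List.mem_cons_of_mem _ hq)).1 (by rintro rfl; exact hpl hq) hpN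
          (hl q (List.mem_cons_of_mem _ hq)).2 0 j k
      rw [h1] at h2
      have h3 : S () = lower (j * (N / p : ℕ)) := by
        ext a b; fin_cases a <;> fin_cases b <;> simp [S, upper, lower, Matrix.mul_apply]
      conv_rhs => rw [h2]
      simp [avg, h3]
    have hzero : sieve N l (F - avg R F) = 0 := by
      rw [sieve_sub, sieve_avg R hF.gammaInv l fun q hq x k => ?_, avg_eq_self R hRfix, sub_self]
      obtain ⟨i, j, hij⟩ := hR x
      rw [hij]
      exact commute_piFam hp (hl q (List.mem_cons_of_mem _ hq)).1 (by rintro rfl; exact hpl hq) hpN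
        (hl q (List.mem_cons_of_mem _ hq)).2 i j k
    have hinv' : UpperInv N (F - avg R F) := fun g hg => by
      rw [sub_slash_mapGL, hF g hg, upperInv_of_dvd (Nat.div_dvd_of_dvd hpN) hA g hg]
    obtain ⟨G, hGl, hsum⟩ := ih hnd' (fun q hq => hl q (List.mem_cons_of_mem _ hq)) (F - avg R F)
      (isCuspidalFun_sub hc (isCuspidalFun_avg hc R)) hinv' hzero
    classical
    refine ⟨Function.update G p (avg R F), fun q hq => ?_, ?_⟩
    · rcases List.mem_cons.mp hq with rfl | hq'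
      · simpa using ⟨isCuspidalFun_avg hc R, hA⟩
      · have : q ≠ p := by rintro rfl; exact hpl hq'
        simpa [Function.update_of_ne this] using hGl q hq'
    · have hmap : l.map (Function.update G p (avg R F)) = l.map G :=
        List.map_congr_left fun q hq => Function.update_of_ne (by rintro rfl; exact hpl hq) _ _
      rw [List.map_cons, List.sum_cons, hmap, ← hsum, Function.update_self]
      abel

/-- `F` has the expansion `∑ cₙ e(n τ / N)`. -/
def HasExp (N : ℕ) (c : ℕ → ℂ) (F : ℍ → ℂ) : Prop :=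
  ∀ τ : ℍ, HasSum (fun n => c n * Function.Periodic.qParam N (τ : ℂ) ^ n) (F τ)

/-- A unipotent matrix acts by translation. -/
theorem slash_upper_apply (F : ℍ → ℂ) (a : ℤ) (τ : ℍ) :
    ∃ τ' : ℍ, (τ' : ℂ) = (τ : ℂ) + a ∧ (F ∣[(2 : ℤ)] mapGL ℝ (upper a)) τ = F τ' := by
  refine ⟨mapGL ℝ (upper a) • τ, ?_, ?_⟩
  · rw [UpperHalfPlane.coe_smul_of_det_pos (det_mapGL_pos _)]
    simp [UpperHalfPlane.num, UpperHalfPlane.denom, upper]
  · rw [ModularForm.slash_apply, UpperHalfPlane.σ, if_pos (det_mapGL_pos _)]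
    simp [UpperHalfPlane.denom, upper]

theorem HasExp.avg_piFam [NeZero N] {p : ℕ} [NeZero p] (hpN : p ∣ N) {c : ℕ → ℂ} {F : ℍ → ℂ}
    (hF : HasExp N c F) :
    HasExp N (fun n => if p ∣ n then c n else 0) (avg (piFam N p) F) := by
  intro τ
  have hp0 : (p : ℂ) ≠ 0 := by exact_mod_cast NeZero.ne p
  have hN0 : (N : ℂ) ≠ 0 := by exact_mod_cast NeZero.ne N
  set q := Function.Periodic.qParam N (τ : ℂ) with hq
  set ζ := Complex.exp (2 * π * Complex.I / p) with hζ
  have hprim := Complex.isPrimitiveRoot_exp p (NeZero.ne p)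
  have hterm : ∀ j : ZMod p,
      HasSum (fun n => c n * q ^ n * (ζ ^ n) ^ j.val)
        ((F ∣[(2 : ℤ)] mapGL ℝ (piFam N p j)) τ) := by
    intro j
    obtain ⟨τ', hτ', happ⟩ := slash_upper_apply F ((j.val : ℤ) * (N / p : ℕ)) τ
    rw [piFam, happ]
    have hqp : Function.Periodic.qParam N (τ' : ℂ) = q * ζ ^ j.val := by
      rw [hq, hζ, Function.Periodic.qParam, Function.Periodic.qParam, ← Complex.exp_nat_mul,
        ← Complex.exp_add, hτ']
      congr 1
      obtain ⟨m, hm⟩ := hpN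
      have hm0 : (m : ℂ) ≠ 0 := by
        intro h0
        exact hN0 (by rw [hm, Nat.cast_mul, h0, mul_zero])
      rw [show N / p = m by rw [hm, Nat.mul_div_cancel_left _ (NeZero.pos p)], hm]
      push_cast
      field_simp
    refine (hF τ').congr_fun fun n => ?_
    rw [hqp, mul_pow, ← pow_mul, ← pow_mul, mul_comm n]
    ring
  have hsum := (hasSum_sum fun j (_ : j ∈ Finset.univ) => hterm j).mul_left (p : ℂ)⁻¹
  have hval : (p : ℂ)⁻¹ * ∑ j : ZMod p, (F ∣[(2 : ℤ)] mapGL ℝ (piFam N p j)) τ =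
      avg (piFam N p) F τ := by
    simp [avg, ZMod.card, Finset.sum_apply]
  rw [hval] at hsum
  refine hsum.congr_fun fun n => ?_
  rw [← Finset.mul_sum]
  have hgeom : ∑ j : ZMod p, (ζ ^ n) ^ j.val = if p ∣ n then (p : ℂ) else 0 := by
    have h1 : ∑ j : ZMod p, (ζ ^ n) ^ j.val = ∑ i ∈ Finset.range p, (ζ ^ n) ^ i := by
      refine Finset.sum_nbij' (fun j : ZMod p => j.val) (fun i : ℕ => (i : ZMod p))
        (fun j _ => Finset.mem_range.mpr j.val_lt) (fun _ _ => Finset.mem_univ _)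
        (fun j _ => ZMod.natCast_zmod_val j)
        (fun i hi => ZMod.val_cast_of_lt (Finset.mem_range.mp hi)) (fun j _ => rfl)
    rw [h1]
    split_ifs with h
    · rw [(hprim.pow_eq_one_iff_dvd n).mpr h]
      simp
    · rw [geom_sum_eq fun h1' => h ((hprim.pow_eq_one_iff_dvd n).mp h1'), ← pow_mul,
        mul_comm n p, pow_mul, hprim.pow_eq_one, one_pow, sub_self, zero_div]
  rw [hgeom]
  by_cases hpn : p ∣ n
  · simp only [hpn, if_true]
    field_simp
  · simp [hpn]

/-- Sieving kills the coefficients at the multiples of the primes in the list. -/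
theorem HasExp.sieve [NeZero N] {c : ℕ → ℂ} {F : ℍ → ℂ} (hF : HasExp N c F) :
    ∀ l : List ℕ, (∀ p ∈ l, p.Prime ∧ p ∣ N) →
      HasExp N (fun n => if ∀ p ∈ l, ¬ p ∣ n then c n else 0) (sieve N l F)
  | [], _ => by simpa [Sieve.sieve] using hF
  | p :: l, hl => by
    obtain ⟨hp, hpN⟩ := hl p List.mem_cons_self
    have : NeZero p := ⟨hp.ne_zero⟩
    have ih := HasExp.sieve hF l fun q hq => hl q (List.mem_cons_of_mem _ hq)
    rw [Sieve.sieve, dif_neg hp.ne_zero]
    intro τ
    refine ((ih τ).sub (ih.avg_piFam hpN τ)).congr_fun fun n => ?_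
    simp only [List.forall_mem_cons]
    by_cases hpn : p ∣ n <;> simp [hpn]

end Sieve

open Sieve in
/-- **Atkin-Lehner main lemma** in weight two. -/
theorem mainLemma {N : ℕ} [NeZero N] (f : CuspForm (CongruenceSubgroup.Gamma0 N) 2)
    (hf : ∀ n : ℕ, n.Coprime N → qCoeff ⇑f n = 0) :
    ∃ g : (p : ℕ) → CuspForm (CongruenceSubgroup.Gamma0 (N / p)) 2,
      ⇑f = ∑ p ∈ N.primeFactors, ⇑(g p) ∣[(2 : ℤ)] heckeDiagMatrix p := by
  classical
  have hN0 : (N : ℂ) ≠ 0 := by exact_mod_cast NeZero.ne N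
  set F : ℍ → ℂ := ⇑f ∣[(2 : ℤ)] heckeMatrix N 0 with hFdef
  have hback : F ∣[(2 : ℤ)] heckeDiagMatrix N = ⇑f := by
    have hmul : heckeMatrix N 0 * heckeDiagMatrix N = scalarGL N := by
      ext i j
      fin_cases i <;> fin_cases j <;>
        simp [NeZero.ne N, val_scalarGL (NeZero.ne N), Matrix.mul_apply, Fin.sum_univ_two]
    rw [hFdef, ← SlashAction.slash_mul, hmul, slash_scalarGL (NeZero.ne N)]
  have hinv : UpperInv N F := by
    rintro g ⟨t, ht⟩
    let g' : SL(2, ℤ) := mkSL (g 0 0) t ((N : ℤ) * g 1 0) (g 1 1)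
      (by linear_combination det_SL g + g 1 0 * ht)
    have hmul : heckeMatrix N 0 * mapGL ℝ g = mapGL ℝ g' * heckeMatrix N 0 := by
      have htR := congrArg (Int.cast : ℤ → ℝ) ht
      push_cast at htR
      ext i j
      fin_cases i <;> fin_cases j <;>
        simp [g', NeZero.ne N, Matrix.mul_apply, Fin.sum_univ_two, htR] <;> ring
    rw [hFdef, ← SlashAction.slash_mul, hmul, SlashAction.slash_mul,
      slash_eq_coe f _ (mapGL_mem_gamma0GL (by simp [g']))]
  have hcusp : IsCuspidalFun 2 F := by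
    have : ∃ g : GL (Fin 2) ℚ,
        Matrix.GeneralLinearGroup.map (Rat.castHom ℝ) g = heckeMatrix N 0 := by
      refine ⟨Matrix.GeneralLinearGroup.mkOfDetNeZero !![1, 0; 0, (N : ℚ)]
        (by simpa using NeZero.ne N), ?_⟩
      ext i j
      fin_cases i <;> fin_cases j <;>
        simp [NeZero.ne N, Matrix.GeneralLinearGroup.mkOfDetNeZero]
    obtain ⟨g, hg⟩ := this
    rw [hFdef, ← hg]
    exact (isCuspidalFun_coe f).slash_ratMap g
  have hexp : HasExp N (fun n => (N : ℂ)⁻¹ * qCoeff ⇑f n) F := by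
    intro τ
    have h1 := CongruenceSubgroup.one_mem_strictPeriods_Gamma0 N
    have : Fact (IsCusp OnePoint.infty (gamma0GL N)) :=
      ⟨Subgroup.isCusp_of_mem_strictPeriods one_pos h1⟩
    have hs := (UpperHalfPlane.hasSum_qExpansion one_pos
      (SlashInvariantFormClass.periodic_comp_ofComplex f h1) (CuspFormClass.holo f)
      (ModularFormClass.bdd_at_infty f) (heckeMatrix N 0 • τ)).mul_left (N : ℂ)⁻¹
    have hq : Function.Periodic.qParam 1 ((heckeMatrix N 0 • τ : ℍ) : ℂ) =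
        Function.Periodic.qParam N (τ : ℂ) := by
      rw [coe_heckeMatrix_smul (NeZero.ne N), Function.Periodic.qParam, Function.Periodic.qParam]
      congr 1
      push_cast
      field_simp
      ring
    rw [hFdef, slash_heckeMatrix_apply 2 (NeZero.ne N)]
    refine hs.congr_fun fun n => ?_
    rw [hq, smul_eq_mul, mul_assoc]
    rfl
  let l := N.primeFactors.toList
  have hl : ∀ p ∈ l, p.Prime ∧ p ∣ N := fun p hp =>
    ⟨Nat.prime_of_mem_primeFactors (Finset.mem_toList.mp hp),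
      Nat.dvd_of_mem_primeFactors (Finset.mem_toList.mp hp)⟩
  have hzero : sieve N l F = 0 := by
    funext τ
    refine (hexp.sieve l hl τ).unique ?_
    have : (fun n => (if ∀ p ∈ l, ¬ p ∣ n then (N : ℂ)⁻¹ * qCoeff ⇑f n else 0) *
        Function.Periodic.qParam N (τ : ℂ) ^ n) = fun _ => 0 := by
      funext n
      split_ifs with h
      · have hcop : n.Coprime N := Nat.coprime_of_dvd fun p hp hpn hpN =>
          h p (Finset.mem_toList.mpr (Nat.mem_primeFactors.mpr ⟨hp, hpN, NeZero.ne N⟩)) hpn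
        rw [hf n hcop, mul_zero, zero_mul]
      · rw [zero_mul]
    rw [this]
    exact hasSum_zero
  obtain ⟨G, hG, hsum⟩ := exists_decomposition l (Finset.nodup_toList _) hl F hcusp hinv hzero
  have hex : ∀ p, ∃ g : CuspForm (CongruenceSubgroup.Gamma0 (N / p)) 2, p ∈ N.primeFactors →
      ⇑g = G p ∣[(2 : ℤ)] heckeDiagMatrix (N / p) := by
    intro p
    by_cases hp : p ∈ N.primeFactors
    · obtain ⟨hGc, hGi⟩ := hG p (Finset.mem_toList.mpr hp)
      have hM0 : N / p ≠ 0 :=
        (Nat.div_pos (Nat.le_of_dvd (NeZero.pos N) (Nat.dvd_of_mem_primeFactors hp))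
          (Nat.prime_of_mem_primeFactors hp).pos).ne'
      have : NeZero (N / p) := ⟨hM0⟩
      refine ⟨mkCuspForm (N / p) 2 (G p ∣[(2 : ℤ)] heckeDiagMatrix (N / p))
        (hGc.slash_heckeDiag _) ?_, fun _ => rfl⟩
      rintro _ ⟨g, hg, rfl⟩
      obtain ⟨t, ht⟩ := mem_Gamma0_iff.mp hg
      generalize N / p = K at hM0 ht hGi hGc ⊢
      let g' : SL(2, ℤ) := mkSL (g 0 0) ((K : ℤ) * g 0 1) t (g 1 1)
        (by linear_combination det_SL g + g 0 1 * ht)
      have hmul : heckeDiagMatrix K * mapGL ℝ g = mapGL ℝ g' * heckeDiagMatrix K := by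
        have htR := congrArg (Int.cast : ℤ → ℝ) ht
        push_cast at htR
        ext i j
        fin_cases i <;> fin_cases j <;>
          simp [g', hM0, Matrix.mul_apply, Fin.sum_univ_two, htR, -Nat.cast_div_charZero] <;> ring
      rw [← SlashAction.slash_mul, hmul, SlashAction.slash_mul, hGi g' (by simp [g'])]
    · exact ⟨0, fun h => absurd h hp⟩
  choose g hg using hex
  refine ⟨g, ?_⟩
  rw [← hback, hsum, Finset.sum_map_toList, SlashAction.sum_slash]
  refine Finset.sum_congr rfl fun p hp => ?_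
  rw [hg p hp, ← SlashAction.slash_mul]
  congr 1
  have hpN := Nat.dvd_of_mem_primeFactors hp
  have hp0 := (Nat.prime_of_mem_primeFactors hp).ne_zero
  have hM0 : N / p ≠ 0 :=
    (Nat.div_pos (Nat.le_of_dvd (NeZero.pos N) hpN) (Nat.pos_of_ne_zero hp0)).ne'
  have hNp : (N : ℝ) = ((N / p : ℕ) : ℝ) * p := by exact_mod_cast (Nat.div_mul_cancel hpN).symm
  ext i j
  fin_cases i <;> fin_cases j <;>
    simp [hM0, hp0, NeZero.ne N, Matrix.mul_apply, Fin.sum_univ_two, hNp, -Nat.cast_div_charZero]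

end Fermat.Agent.Newforms
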