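import Mathlib.RingTheory.Artinian.Module
import Fermat.Agent.Newforms.Main
import Fermat.Agent.Newforms.MainLemma

/-!
# Multiplicity one for newforms at a fixed level

`eq_smul_of_isNewform`: a form of level `N` with the eigenvalues of a newform of level `N` at all
good primes is a multiple of it. The proof combines the main lemma of Atkin-Lehner with the
equivariance of the degeneracy maps.
-/

set_option autoImplicit false

noncomputable section

open ModularFormClass UpperHalfPlane CongruenceSubgroup ModularForm CuspForm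
open scoped MatrixGroups ModularForm

namespace Fermat.Agent.Newforms

open Fermat.Agent.HeckeLift (qCoeff_smul qCoeff_sub qCoeff_at_zero qCoeff_heckeTLin)

/-- An eigensystem on the image of an equivariant map occurs on its source. -/
theorem exists_eigenvector_of_image {V W ι : Type*} [AddCommGroup V] [Module ℂ V]
    [AddCommGroup W] [Module ℂ W] [FiniteDimensional ℂ W] (Φ : W →ₗ[ℂ] V)
    (T : ι → Module.End ℂ W) (S : ι → Module.End ℂ V) (hcomm : ∀ i j, Commute (T i) (T j))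
    (hequiv : ∀ i w, Φ (T i w) = S i (Φ w)) (θ : ι → ℂ) {φ : V} (hφ0 : φ ≠ 0) {w₀ : W}
    (hw₀ : Φ w₀ = φ) (hφ : ∀ i, S i φ = θ i • φ) :
    ∃ w : W, w ≠ 0 ∧ ∀ i, T i w = θ i • w := by
  classical
  let Good : Submodule ℂ W → Prop := fun Z =>
    (∀ i, ∀ z ∈ Z, T i z ∈ Z) ∧ (∀ z ∈ Z, ∃ c : ℂ, Φ z = c • φ) ∧ φ ∈ Z.map Φ
  have hZ₀ : Good ((ℂ ∙ φ).comap Φ) := by
    refine ⟨fun i z hz => ?_, fun z hz => ?_, ⟨w₀, ?_, hw₀⟩⟩
    · obtain ⟨c, hc⟩ := Submodule.mem_span_singleton.mp hz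
      refine Submodule.mem_span_singleton.mpr ⟨c * θ i, ?_⟩
      rw [hequiv, ← hc, map_smul, hφ, smul_smul]
    · obtain ⟨c, hc⟩ := Submodule.mem_span_singleton.mp hz
      exact ⟨c, hc.symm⟩
    · show Φ w₀ ∈ ℂ ∙ φ
      rw [hw₀]
      exact Submodule.mem_span_singleton_self φ
  obtain ⟨Z, ⟨hinv, hline, hmap⟩, hmin⟩ :=
    (wellFounded_lt (α := Submodule ℂ W)).has_min {Z | Good Z} ⟨_, hZ₀⟩
  have hnil : ∀ i, ∃ n : ℕ, ∀ z ∈ Z, ((T i - θ i • 1) ^ n) z = 0 := by
    intro i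
    set t : Module.End ℂ W := T i - θ i • 1 with ht
    have htZ : ∀ z ∈ Z, t z ∈ Z := fun z hz => by
      simpa [ht] using Z.sub_mem (hinv i z hz) (Z.smul_mem (θ i) hz)
    obtain ⟨n, hn1, hn⟩ : ∃ n, 1 ≤ n ∧ IsCompl (LinearMap.ker ((t.restrict htZ) ^ n))
        (LinearMap.range ((t.restrict htZ) ^ n)) := by
      obtain ⟨n, hn⟩ := Filter.eventually_atTop.mp
        (t.restrict htZ).eventually_isCompl_ker_pow_range_pow
      exact ⟨n + 1, Nat.le_add_left 1 n, hn (n + 1) (Nat.le_succ n)⟩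
    refine ⟨n, ?_⟩
    let Z' : Submodule ℂ W := Z ⊓ LinearMap.ker (t ^ n)
    have hΦt : ∀ z ∈ Z, Φ (t z) = 0 := fun z hz => by
      obtain ⟨c, hc⟩ := hline z hz
      have : Φ (t z) = S i (Φ z) - θ i • Φ z := by simp [ht, hequiv]
      rw [this, hc, map_smul, hφ, smul_comm, sub_self]
    have hres : ∀ (k : ℕ) (z : Z), (((t.restrict htZ) ^ k) z : W) = (t ^ k) z := fun k z => by
      induction k generalizing z with
      | zero => simp
      | succ k ih =>
        rw [pow_succ, pow_succ, Module.End.mul_apply, Module.End.mul_apply, ih]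
        rfl
    have hgood : Good Z' := by
      refine ⟨fun j z hz => ⟨hinv j z hz.1, ?_⟩, fun z hz => hline z hz.1, ?_⟩
      · have hc : Commute (t ^ n) (T j) :=
          (((hcomm i j).sub_left ((Commute.one_left (T j)).smul_left (θ i))).pow_left n)
        show (t ^ n) (T j z) = 0
        rw [← Module.End.mul_apply, hc.eq, Module.End.mul_apply,
          show (t ^ n) z = 0 from hz.2, map_zero]
      · obtain ⟨z, hz, hzφ⟩ := hmap
        obtain ⟨a, ha, b, hb, hab⟩ := Submodule.mem_sup.mp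
          (show (⟨z, hz⟩ : Z) ∈ LinearMap.ker ((t.restrict htZ) ^ n) ⊔
            LinearMap.range ((t.restrict htZ) ^ n) by rw [hn.sup_eq_top]; exact Submodule.mem_top)
        obtain ⟨c, rfl⟩ := hb
        refine ⟨(a : W), ⟨a.2, ?_⟩, ?_⟩
        · show (t ^ n) (a : W) = 0
          rw [← hres, LinearMap.mem_ker.mp ha, Submodule.coe_zero]
        · have hval : (a : W) + (t ^ n) (c : W) = z := by
            have := congrArg Subtype.val hab
            rwa [Submodule.coe_add, hres] at this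
          have hzero : Φ ((t ^ n) (c : W)) = 0 := by
            obtain ⟨m, rfl⟩ : ∃ m, n = m + 1 := ⟨n - 1, (Nat.sub_add_cancel hn1).symm⟩
            rw [pow_succ', Module.End.mul_apply]
            exact hΦt _ (by rw [← hres m c]; exact Subtype.prop _)
          rw [← hzφ, ← hval, map_add, hzero, add_zero]
    have heq : Z' = Z := by
      by_contra hne
      exact hmin Z' hgood (lt_of_le_of_ne inf_le_left hne)
    exact fun z hz => (heq.symm ▸ hz : z ∈ Z').2
  have hZ0 : Z ≠ ⊥ := by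
    rintro rfl
    simp at hmap
    exact hφ0 hmap
  obtain ⟨v, hvZ, hv0, hv⟩ := Fermat.Agent.HeckeLift.exists_common_eigenvector (Set.range T)
    (by rintro _ ⟨i, rfl⟩ _ ⟨j, rfl⟩; exact hcomm i j) Z hZ0
    (by rintro _ ⟨i, rfl⟩ z hz; exact hinv i z hz)
  refine ⟨v, hv0, fun i => ?_⟩
  obtain ⟨μ, hμ⟩ := hv _ ⟨i, rfl⟩
  obtain ⟨n, hn⟩ := hnil i
  have hpow : ∀ k : ℕ, ((T i - θ i • 1) ^ k) v = (μ - θ i) ^ k • v := fun k => by
    induction k with
    | zero => simp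
    | succ k ih =>
      rw [pow_succ', Module.End.mul_apply, ih, map_smul, pow_succ, mul_smul]
      simp [hμ, sub_smul]
  have h0 : (μ - θ i) ^ n = 0 :=
    (smul_eq_zero.mp ((hpow n).symm.trans (hn v hvZ))).resolve_right hv0
  rw [hμ, sub_eq_zero.mp (eq_zero_of_pow_eq_zero h0)]

/-- `T_ℓ` commutes with the degeneracy map. -/
theorem heckeTLin_degen {M p ℓ : ℕ} [NeZero M] [NeZero p] (hp : p.Prime) (hℓ : ℓ.Prime)
    (hℓN : ¬ ℓ ∣ p * M) (hℓM : ¬ ℓ ∣ M) (f : CuspForm (Gamma0 M) 2) :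
    CuspForm.heckeTLin 2 hℓ hℓN (degen p f) = degen p (CuspForm.heckeTLin 2 hℓ hℓM f) := by
  have hne : p ≠ ℓ := fun h => hℓN (h ▸ dvd_mul_right p M)
  have hcop : p.Coprime ℓ := (Nat.coprime_primes hp hℓ).mpr hne
  refine eq_of_qCoeff fun n => ?_
  rw [qCoeff_heckeTLin, qCoeff_degen, qCoeff_degen, qCoeff_degen, qCoeff_heckeTLin]
  by_cases hpn : p ∣ n
  · obtain ⟨s, rfl⟩ := hpn
    have h1 : p * s * ℓ / p = s * ℓ := by rw [mul_assoc, Nat.mul_div_cancel_left _ hp.pos]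
    have h2 : p * s / p = s := Nat.mul_div_cancel_left _ hp.pos
    rw [if_pos (dvd_mul_of_dvd_left (dvd_mul_right p s) ℓ), if_pos (dvd_mul_right p s), h1, h2]
    by_cases hs : ℓ ∣ s
    · obtain ⟨u, rfl⟩ := hs
      have h3 : p * (ℓ * u) / ℓ = p * u := by
        rw [mul_left_comm, Nat.mul_div_cancel_left _ hℓ.pos]
      rw [if_pos (dvd_mul_of_dvd_right (dvd_mul_right ℓ u) p), if_pos (dvd_mul_right ℓ u), h3,
        if_pos (dvd_mul_right p u), Nat.mul_div_cancel_left _ hp.pos,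
        Nat.mul_div_cancel_left _ hℓ.pos]
      ring
    · have h4 : ¬ ℓ ∣ p * s := fun h => (hℓ.dvd_mul.mp h).elim
        (fun h' => hne ((Nat.prime_dvd_prime_iff_eq hℓ hp).mp h').symm) hs
      rw [if_neg h4, if_neg hs]
      ring
  · have h1 : ¬ p ∣ n * ℓ := fun h => hpn (hcop.dvd_of_dvd_mul_right h)
    have h2 : ℓ ∣ n → ¬ p ∣ n / ℓ := fun hl h => hpn (h.trans (Nat.div_dvd_of_dvd hl))
    rw [if_neg h1, if_neg hpn]
    split_ifs with hl hl2
    · exact absurd hl2 (h2 hl)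
    · simp
    · simp

/-- Multiplicity one: at its own level, the good eigensystem of a newform cuts out a line. -/
theorem eq_smul_of_isNewform {N : ℕ} [NeZero N] (f : CuspForm (Gamma0 N) 2) (hf : f.IsNewform)
    (h : CuspForm (Gamma0 N) 2)
    (hh : ∀ ℓ : ℕ, ℓ.Prime → ¬ ℓ ∣ N → heckeT 2 ℓ ⇑h = qCoeff ⇑f ℓ • ⇑h) :
    h = qCoeff ⇑h 1 • f := by
  classical
  set φ := h - qCoeff ⇑h 1 • f with hφdef
  have hφeig : ∀ ℓ (hℓ : ℓ.Prime) (hℓN : ¬ ℓ ∣ N),
      CuspForm.heckeTLin 2 hℓ hℓN φ = qCoeff ⇑f ℓ • φ := by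
    intro ℓ hℓ hℓN
    have hh' : CuspForm.heckeTLin 2 hℓ hℓN h = qCoeff ⇑f ℓ • h :=
      DFunLike.coe_injective (hh ℓ hℓ hℓN)
    rw [hφdef, map_sub, map_smul, hh', heckeTLin_eq_smul hf.1 hℓ hℓN, smul_sub, smul_comm]
  have hcop : ∀ n : ℕ, n.Coprime N → qCoeff ⇑φ n = 0 := by
    intro n
    induction n using Nat.strong_induction_on with
    | _ n ih =>
      intro hn
      rcases Nat.lt_or_ge n 2 with h2 | h2
      · interval_cases n
        · exact qCoeff_at_zero φ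
        · rw [hφdef, qCoeff_sub, qCoeff_smul, hf.1.qCoeff_one, mul_one, sub_self]
      · obtain ⟨ℓ, hℓ, m, rfl⟩ := Nat.exists_prime_and_dvd (show n ≠ 1 by omega)
        have hm : 0 < m := Nat.pos_of_ne_zero fun h => by simp [h] at h2
        have hlt : m < ℓ * m := lt_mul_of_one_lt_left hm hℓ.one_lt
        have hℓN : ¬ ℓ ∣ N := fun h => hℓ.one_lt.ne'
          (Nat.dvd_one.mp (hn ▸ Nat.dvd_gcd (dvd_mul_right ℓ m) h))
        have e := congrArg (fun g : CuspForm (Gamma0 N) 2 => qCoeff ⇑g m) (hφeig ℓ hℓ hℓN)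
        simp only [qCoeff_heckeTLin, qCoeff_smul] at e
        rw [ih m hlt hn.coprime_mul_left, mul_zero, mul_comm m ℓ] at e
        split_ifs at e with hd
        · rw [ih (m / ℓ) ((Nat.div_le_self m ℓ).trans_lt hlt)
            (hn.coprime_mul_left.coprime_dvd_left (Nat.div_dvd_of_dvd hd)), mul_zero, add_zero] at e
          exact e
        · rwa [add_zero] at e
  suffices hφ0 : φ = 0 from sub_eq_zero.mp hφ0
  by_contra hφ0
  obtain ⟨g, hg⟩ := mainLemma φ hcop
  let P := {p : ℕ // p ∈ N.primeFactors}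
  have hM : ∀ p : P, NeZero (N / (p : ℕ)) := fun p =>
    ⟨(Nat.div_pos (Nat.le_of_dvd (NeZero.pos N) (Nat.dvd_of_mem_primeFactors p.2))
      (Nat.prime_of_mem_primeFactors p.2).pos).ne'⟩
  have hpN : ∀ p : P, (p : ℕ) * (N / (p : ℕ)) = N :=
    fun p => Nat.mul_div_cancel' (Nat.dvd_of_mem_primeFactors p.2)
  let W := (p : P) → CuspForm (Gamma0 (N / (p : ℕ))) 2
  have : ∀ p : P, FiniteDimensional ℂ (CuspForm (Gamma0 (N / (p : ℕ))) 2) := fun p =>
    haveI := hM p
    Fermat.Agent.HeckeLift.finiteDimensional_cuspForm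
  let comp : (p : P) → CuspForm (Gamma0 (N / (p : ℕ))) 2 →ₗ[ℂ] CuspForm (Gamma0 N) 2 := fun p =>
    haveI := hM p
    haveI : NeZero (p : ℕ) := ⟨(Nat.prime_of_mem_primeFactors p.2).ne_zero⟩
    { toFun := fun G => mkCuspForm N 2 (⇑G ∣[(2 : ℤ)] heckeDiagMatrix p)
        ((isCuspidalFun_coe G).slash_heckeDiag p)
        (fun γ hγ => slash_heckeDiag_invariant (NeZero.ne (p : ℕ)) (slash_eq_coe G) γ
          (by rw [hpN p]; exact hγ))
      map_add' := fun G H => DFunLike.coe_injective <| by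
        simp [SlashAction.add_slash]
      map_smul' := fun c G => DFunLike.coe_injective <| by
        simp [ModularForm.smul_slash, σ_heckeDiagMatrix] }
  let Φ : W →ₗ[ℂ] CuspForm (Gamma0 N) 2 := ∑ p : P, (comp p).comp (LinearMap.proj p)
  let I := {ℓ : ℕ // ℓ.Prime ∧ ¬ ℓ ∣ N}
  have hlM : ∀ (i : I) (p : P), ¬ (i : ℕ) ∣ N / (p : ℕ) := fun i p h =>
    i.2.2 (h.trans (Nat.div_dvd_of_dvd (Nat.dvd_of_mem_primeFactors p.2)))
  let T : I → Module.End ℂ W := fun i =>
    LinearMap.pi fun p => (CuspForm.heckeTLin 2 i.2.1 (hlM i p)).comp (LinearMap.proj p)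
  let S : I → Module.End ℂ (CuspForm (Gamma0 N) 2) := fun i => CuspForm.heckeTLin 2 i.2.1 i.2.2
  have hcomp : ∀ (i : I) (p : P) (G), comp p (CuspForm.heckeTLin 2 i.2.1 (hlM i p) G) =
      S i (comp p G) := by
    intro i p G
    have := hM p
    have hp := Nat.prime_of_mem_primeFactors p.2
    have : NeZero (p : ℕ) := ⟨hp.ne_zero⟩
    have e := congrArg (fun g : CuspForm (Gamma0 ((p : ℕ) * (N / (p : ℕ)))) 2 => ⇑g)
      (heckeTLin_degen hp i.2.1 (by rw [hpN p]; exact i.2.2) (hlM i p) G)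
    exact DFunLike.coe_injective e.symm
  have hsum : ∀ v : W, Φ v = ∑ p : P, comp p (v p) := fun v => by simp [Φ]; rfl
  obtain ⟨w, hw0, hw⟩ := exists_eigenvector_of_image Φ T S
    (fun i j => by
      refine LinearMap.ext fun v => funext fun p => ?_
      have := hM p
      exact LinearMap.congr_fun
        (CuspForm.heckeTLin_comm 2 i.2.1 (hlM i p) j.2.1 (hlM j p)).eq (v p))
    (fun i v => by
      rw [hsum, hsum, map_sum]
      exact Finset.sum_congr rfl fun p _ => hcomp i p (v p))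
    (fun i => qCoeff ⇑f i) hφ0 (w₀ := fun p => g p)
    (by
      refine DFunLike.coe_injective ?_
      rw [hsum, hg, FunLike.coe_sum, ← Finset.sum_attach N.primeFactors]
      rfl)
    (fun i => hφeig i i.2.1 i.2.2)
  obtain ⟨p, hp⟩ : ∃ p, w p ≠ 0 := by
    by_contra hall
    exact hw0 (funext fun p => not_not.mp fun h => hall ⟨p, h⟩)
  have := hM p
  have hp' := Nat.prime_of_mem_primeFactors p.2
  obtain ⟨g', hg', hg'f⟩ := exists_eigenform_of_eigenvector hp
    (fun ℓ => ℓ.Prime ∧ ¬ ℓ ∣ N) (fun ℓ => qCoeff ⇑f ℓ)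
    (fun ℓ hℓ => ⟨hℓ.1, hlM ⟨ℓ, hℓ⟩ p⟩)
    (fun ℓ hℓ => congrArg (fun g : CuspForm (Gamma0 (N / (p : ℕ))) 2 => ⇑g)
      (congrFun (hw ⟨ℓ, hℓ⟩) p))
  refine hf.2 (N / (p : ℕ)) (Nat.div_dvd_of_dvd (Nat.dvd_of_mem_primeFactors p.2))
    (Nat.div_lt_self (NeZero.pos N) hp'.one_lt).ne ⟨g', hg', fun ℓ hℓ hℓN => hg'f ℓ ⟨hℓ, hℓN⟩⟩

end Fermat.Agent.Newforms
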